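import Fermat.Agent.IharaGroup.LocalZMod

/-!
# From `ℤ/N` to its prime power components

`GlobalData A k Q` is the variant of `LocalData` in which the kernel of `π` is central and the
conjugation relations hold for every triangular element.  For `A = ℤ/N` the map `π` is injective
(`GlobalData.injective_zmod`): the components attached to the prime power divisors of `N` commute
and each of them is a `LocalData`.
-/

set_option autoImplicit false

noncomputable section

open scoped MatrixGroups Classical

namespace Fermat.Agent.IharaGroup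

/-- The data of the extension over `ℤ/N`. -/
structure GlobalData (A k Q : Type*) [CommRing A] [Field k] [Group Q] where
  U : A → Q
  L : A → Q
  π : Q →* SL(2, A)
  θ : Q → k
  U_add : ∀ x y, U (x + y) = U x * U y
  L_add : ∀ x y, L (x + y) = L x * L y
  π_U : ∀ x, π (U x) = uMat x
  π_L : ∀ x, π (L x) = lMat x
  θ_mul : ∀ g g', π g 1 0 = 0 → π g' 1 0 = 0 → θ (g * g') = θ g + θ g'
  θ_U : ∀ x, θ (U x) = 0
  θ_inj : ∀ g, π g = 1 → θ g = 0 → g = 1
  conjU : ∀ g, π g 1 0 = 0 → ∀ x, g * U x = U (π g 0 0 ^ 2 * x) * g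
  conjL : ∀ g, π g 0 1 = 0 → ∀ x, g * L x = L (π g 1 1 ^ 2 * x) * g
  w1U : ∀ x, U 1 * L (-1) * U 1 * U x = L (-x) * (U 1 * L (-1) * U 1)
  w1L : ∀ x, U 1 * L (-1) * U 1 * L x = U (-x) * (U 1 * L (-1) * U 1)
  central : ∀ z, π z = 1 → ∀ g, g * z = z * g
  generate : Subgroup.closure (Set.range U ∪ Set.range L) = ⊤

namespace GlobalData

variable {A k Q : Type*} [CommRing A] [Field k] [Group Q] (D : GlobalData A k Q)

/-- `U 0 = 1`. -/
theorem U_zero : D.U 0 = 1 := by
  have h := D.U_add 0 0
  rw [add_zero] at h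
  exact left_eq_mul.1 h

/-- `L 0 = 1`. -/
theorem L_zero : D.L 0 = 1 := by
  have h := D.L_add 0 0
  rw [add_zero] at h
  exact left_eq_mul.1 h

theorem π_commutator {x y : A} (h : x * y = 0) :
    D.π (D.U x * D.L y * (D.U x)⁻¹ * (D.L y)⁻¹) = 1 := by
  have hc : uMat x * lMat y = lMat y * uMat x := by
    ext i j
    fin_cases i <;> fin_cases j <;>
      simp [Matrix.mul_apply, Fin.sum_univ_two, h, mul_comm y x]
  rw [map_mul, map_mul, map_mul, map_inv, map_inv, D.π_U, D.π_L, hc]
  group

/-- The parts belonging to orthogonal idempotents commute. -/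
theorem commute_U_L {e : ℕ} {f : A} (he : (e : A) * e = e) (hef : (e : A) * f = 0) (x y : A) :
    Commute (D.U ((e : A) * x)) (D.L (f * y)) := by
  set c : A → A → Q := fun a b => D.U a * D.L b * (D.U a)⁻¹ * (D.L b)⁻¹ with hc
  have hadd : ∀ a a' b, a' * b = 0 → c (a + a') b = c a' b * c a b := by
    intro a a' b h
    calc c (a + a') b = D.U a * c a' b * (D.L b * (D.U a)⁻¹ * (D.L b)⁻¹) := by
          simp only [hc, D.U_add, mul_inv_rev, mul_assoc, inv_mul_cancel_left]
      _ = c a' b * c a b := by
          rw [D.central _ (D.π_commutator h) (D.U a)]; simp only [hc, mul_assoc]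
  have hadd' : ∀ a b b', a * b' = 0 → c a (b + b') = c a b' * c a b := by
    intro a b b' h'
    calc c a (b + b') = D.U a * D.L b * (D.U a)⁻¹ * c a b' * (D.L b)⁻¹ := by
          simp only [hc, D.L_add, mul_inv_rev, mul_assoc, inv_mul_cancel_left]
      _ = c a b' * c a b := by
          rw [D.central _ (D.π_commutator h') (D.U a * D.L b * (D.U a)⁻¹)]
          simp only [hc, mul_assoc]
  set a : A := (e : A) * x
  set b : A := f * y
  have hea : (e : A) * a = a := by simp only [a, ← mul_assoc, he]
  have heb : (e : A) * b = 0 := by simp only [b, ← mul_assoc, hef, zero_mul]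
  have hab : a * b = 0 := by rw [← hea, mul_right_comm, heb, zero_mul]
  have h0 : ∀ z, c 0 z = 1 := fun z => by simp [hc, D.U_zero]
  have h0' : ∀ z, c z 0 = 1 := fun z => by simp [hc, D.L_zero]
  have hn : ∀ n : ℕ, c ((n : A) * a) b = c a b ^ n := by
    intro n
    induction n with
    | zero => rw [Nat.cast_zero, zero_mul, h0, pow_zero]
    | succ n ih => rw [Nat.cast_succ, add_mul, one_mul, hadd _ _ _ hab, ih, pow_succ']
  have hn' : ∀ n : ℕ, c a ((n : A) * b) = c a b ^ n := by
    intro n
    induction n with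
    | zero => rw [Nat.cast_zero, zero_mul, h0', pow_zero]
    | succ n ih => rw [Nat.cast_succ, add_mul, one_mul, hadd' _ _ _ hab, ih, pow_succ']
  have h1 : c a b = 1 :=
    calc c a b = c ((e : A) * a) b := by rw [hea]
      _ = c a ((e : A) * b) := by rw [hn, hn']
      _ = 1 := by rw [heb, h0']
  show D.U a * D.L b = D.L b * D.U a
  exact mul_inv_eq_iff_eq_mul.1 (mul_inv_eq_one.1 h1)

theorem U_comm (a b : A) : Commute (D.U a) (D.U b) := by
  show D.U a * D.U b = D.U b * D.U a
  rw [← D.U_add, ← D.U_add, add_comm]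

theorem L_comm (a b : A) : Commute (D.L a) (D.L b) := by
  show D.L a * D.L b = D.L b * D.L a
  rw [← D.L_add, ← D.L_add, add_comm]

/-- The subgroup attached to an idempotent. -/
def part (E : A) : Subgroup Q :=
  Subgroup.closure (Set.range (fun x => D.U (E * x)) ∪ Set.range (fun x => D.L (E * x)))

theorem U_mem_part (E x : A) : D.U (E * x) ∈ D.part E :=
  Subgroup.subset_closure (Or.inl ⟨x, rfl⟩)

theorem L_mem_part (E x : A) : D.L (E * x) ∈ D.part E :=
  Subgroup.subset_closure (Or.inr ⟨x, rfl⟩)

theorem part_comm {e f : ℕ} (he : (e : A) * e = e) (hf : (f : A) * f = f)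
    (hef : (e : A) * f = 0) {g g' : Q} (hg : g ∈ D.part (e : A)) (hg' : g' ∈ D.part (f : A)) :
    Commute g g' := by
  have hgen : ∀ a ∈ Set.range (fun x => D.U ((e : A) * x)) ∪ Set.range (fun x => D.L ((e : A) * x)),
      ∀ b ∈ Set.range (fun x => D.U ((f : A) * x)) ∪ Set.range (fun x => D.L ((f : A) * x)),
        a * b = b * a := by
    rintro _ (⟨x, rfl⟩ | ⟨x, rfl⟩) _ (⟨y, rfl⟩ | ⟨y, rfl⟩)
    · exact D.U_comm _ _
    · exact D.commute_U_L he hef x y
    · exact (D.commute_U_L hf (by rwa [mul_comm]) y x).symm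
    · exact D.L_comm _ _
  have : D.part (e : A) ≤ Subgroup.centralizer (D.part (f : A) : Set Q) := by
    rw [part, Subgroup.closure_le]
    intro a ha
    rw [SetLike.mem_coe, part, Subgroup.centralizer_closure, Subgroup.mem_centralizer_iff]
    exact fun b hb => (hgen a ha b hb).symm
  exact (Subgroup.mem_centralizer_iff.1 (this hg) g' hg').symm

theorem map_π_part {B : Type*} [CommRing B] (r : A →+* B) (E : A) (h : r E = 0) {g : Q}
    (hg : g ∈ D.part E) : Matrix.SpecialLinearGroup.map r (D.π g) = 1 := by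
  have : D.part E ≤ ((Matrix.SpecialLinearGroup.map r).comp D.π).ker := by
    rw [part, Subgroup.closure_le]
    rintro _ (⟨x, rfl⟩ | ⟨x, rfl⟩) <;> rw [SetLike.mem_coe, MonoidHom.mem_ker] <;>
      simp only [MonoidHom.comp_apply, D.π_U, D.π_L] <;> ext i j <;> fin_cases i <;>
      fin_cases j <;> simp [h]
  exact MonoidHom.mem_ker.1 (this hg)

/-- An entry of `π g`, `g` in the part of `E`, is determined by its reduction. -/
theorem entry_eq_of_red {B : Type*} [CommRing B] (r : A →+* B) {E : A} (hE : E * E = E)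
    (hker : ∀ a, r a = 0 → E * a = 0) {g : Q} (hg : g ∈ D.part E) (i j : Fin 2)
    (h : r (D.π g i j) = r ((1 : SL(2, A)) i j)) : D.π g i j = (1 : SL(2, A)) i j := by
  set q : A →+* A ⧸ Ideal.span {E} := Ideal.Quotient.mk _
  have h1 := D.map_π_part q E (Ideal.Quotient.eq_zero_iff_mem.2 (Ideal.mem_span_singleton_self E)) hg
  have h2 : q (D.π g i j) = q ((1 : SL(2, A)) i j) := by
    rw [← map_one (Matrix.SpecialLinearGroup.map q (n := Fin 2))] at h1
    exact congrArg (fun M : SL(2, A ⧸ Ideal.span {E}) => M i j) h1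
  obtain ⟨b, hb⟩ := Ideal.mem_span_singleton.1 (Ideal.Quotient.eq.1 h2)
  have h3 := hker _ (by rw [map_sub, h, sub_self] :
    r (D.π g i j - (1 : SL(2, A)) i j) = 0)
  rw [hb, ← mul_assoc, hE, ← hb] at h3
  exact sub_eq_zero.1 h3

theorem part_w {B : Type*} [CommRing B] {r : A →+* B} (hr : Function.Surjective r) {e f : ℕ}
    (he : (e : A) * e = e) (hf : (f : A) * f = f) (hef : (e : A) + f = 1)
    (hker : ∀ a, r a = 0 → (e : A) * a = 0) (x : B) :
    D.U ((e : A) * Function.surjInv hr 1) * D.L ((e : A) * Function.surjInv hr (-1)) *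
          D.U ((e : A) * Function.surjInv hr 1) * D.U ((e : A) * Function.surjInv hr x) =
        D.L ((e : A) * Function.surjInv hr (-x)) * (D.U ((e : A) * Function.surjInv hr 1) *
          D.L ((e : A) * Function.surjInv hr (-1)) * D.U ((e : A) * Function.surjInv hr 1)) ∧
      D.U ((e : A) * Function.surjInv hr 1) * D.L ((e : A) * Function.surjInv hr (-1)) *
          D.U ((e : A) * Function.surjInv hr 1) * D.L ((e : A) * Function.surjInv hr x) =
        D.U ((e : A) * Function.surjInv hr (-x)) * (D.U ((e : A) * Function.surjInv hr 1) *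
          D.L ((e : A) * Function.surjInv hr (-1)) * D.U ((e : A) * Function.surjInv hr 1)) := by
  have hs1 : (e : A) * Function.surjInv hr 1 = (e : A) * 1 := by
    apply sub_eq_zero.1
    rw [← mul_sub]
    exact hker _ (by simp [Function.surjInv_eq hr])
  have hsneg : ∀ z : B, (e : A) * Function.surjInv hr (-z) = -((e : A) * Function.surjInv hr z) := by
    intro z
    rw [← mul_neg]
    apply sub_eq_zero.1
    rw [← mul_sub]
    exact hker _ (by simp [Function.surjInv_eq hr])
  have hef0 : (e : A) * f = 0 := by linear_combination (e : A) * hef - he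
  have hfe0 : (f : A) * e = 0 := by rw [mul_comm]; exact hef0
  set We : Q := D.U ((e : A) * 1) * D.L ((e : A) * -1) * D.U ((e : A) * 1)
  set Wf : Q := D.U ((f : A) * 1) * D.L ((f : A) * -1) * D.U ((f : A) * 1)
  have hWf : Wf ∈ D.part (f : A) :=
    mul_mem (mul_mem (D.U_mem_part _ _) (D.L_mem_part _ _)) (D.U_mem_part _ _)
  have hW : We * Wf = D.U 1 * D.L (-1) * D.U 1 := by
    have e1 : D.U 1 = D.U ((e : A) * 1) * D.U ((f : A) * 1) := by
      rw [← D.U_add]; congr 1; linear_combination -hef
    have e2 : D.L (-1) = D.L ((e : A) * -1) * D.L ((f : A) * -1) := by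
      rw [← D.L_add]; congr 1; linear_combination hef
    have c1 : Commute (D.U ((f : A) * 1)) (D.L ((e : A) * -1)) := D.commute_U_L hf hfe0 _ _
    have c2 : Commute (D.U ((e : A) * 1)) (D.L ((f : A) * -1)) := D.commute_U_L he hef0 _ _
    have c3 : Commute (D.U ((f : A) * 1)) (D.U ((e : A) * 1)) := D.U_comm _ _
    rw [e1, e2]
    simp only [We, Wf, mul_assoc]
    rw [← mul_assoc (D.U ((f : A) * 1)) (D.L ((e : A) * -1)), c1.eq, mul_assoc,
      ← mul_assoc (D.L ((f : A) * -1)) (D.U ((e : A) * 1)), ← c2.eq, mul_assoc,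
      ← mul_assoc (D.U ((f : A) * 1)) (D.U ((e : A) * 1)), c3.eq, mul_assoc]
  have hconj : ∀ g ∈ D.part (e : A), ∀ g', D.U 1 * D.L (-1) * D.U 1 * g =
      g' * (D.U 1 * D.L (-1) * D.U 1) → We * g = g' * We := by
    intro g hg g' h
    have hc : Commute g Wf := D.part_comm he hf hef0 hg hWf
    rw [← hW, mul_assoc We Wf g, ← hc.eq, ← mul_assoc We g Wf, ← mul_assoc g' We Wf] at h
    exact mul_right_cancel h
  rw [hs1, hsneg 1, hs1, ← mul_neg (e : A) (1 : A), hsneg x]
  exact ⟨hconj _ (D.U_mem_part _ _) _ (D.w1U _), hconj _ (D.L_mem_part _ _) _ (D.w1L _)⟩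

/-- The local data of a component. -/
def component {B : Type*} [CommRing B] (r : A →+* B) (hr : Function.Surjective r) {e f : ℕ}
    (he : (e : A) * e = e) (hf : (f : A) * f = f) (hef : (e : A) + f = 1) (hr1 : r (e : A) = 1)
    (hker : ∀ a, r a = 0 → (e : A) * a = 0) : LocalData B k (D.part (e : A)) where
  U x := ⟨D.U ((e : A) * Function.surjInv hr x), D.U_mem_part _ _⟩
  L x := ⟨D.L ((e : A) * Function.surjInv hr x), D.L_mem_part _ _⟩
  π := ((Matrix.SpecialLinearGroup.map r).comp D.π).comp (D.part (e : A)).subtype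
  θ g := D.θ g
  U_add x y := by
    apply Subtype.ext
    show D.U _ = D.U _ * D.U _
    rw [← D.U_add, ← mul_add]
    congr 1
    apply sub_eq_zero.1
    rw [← mul_sub]
    exact hker _ (by simp [Function.surjInv_eq hr])
  L_add x y := by
    apply Subtype.ext
    show D.L _ = D.L _ * D.L _
    rw [← D.L_add, ← mul_add]
    congr 1
    apply sub_eq_zero.1
    rw [← mul_sub]
    exact hker _ (by simp [Function.surjInv_eq hr])
  π_U x := by
    show Matrix.SpecialLinearGroup.map r (D.π (D.U _)) = _
    rw [D.π_U]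
    ext i j
    fin_cases i <;> fin_cases j <;> simp [hr1, Function.surjInv_eq hr]
  π_L x := by
    show Matrix.SpecialLinearGroup.map r (D.π (D.L _)) = _
    rw [D.π_L]
    ext i j
    fin_cases i <;> fin_cases j <;> simp [hr1, Function.surjInv_eq hr]
  θ_mul g g' hg hg' := by
    have h0 : ∀ (g : D.part (e : A)), r (D.π g 1 0) = 0 → D.π g 1 0 = 0 := fun g h => by
      have := D.entry_eq_of_red r he hker g.2 1 0 (by simpa using h)
      simpa using this
    exact D.θ_mul _ _ (h0 g hg) (h0 g' hg')
  θ_U x := D.θ_U _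
  θ_inj g hg hθ := by
    apply Subtype.ext
    refine D.θ_inj _ ?_ hθ
    ext i j
    refine D.entry_eq_of_red r he hker g.2 i j ?_
    have := congrArg (fun M : SL(2, B) => M i j) hg
    fin_cases i <;> fin_cases j <;> simpa using this
  conjU g a x hg := by
    have h10 : D.π g 1 0 = 0 := by
      have := D.entry_eq_of_red r he hker g.2 1 0
        (by simpa using congrArg (fun M : SL(2, B) => M 1 0) hg)
      simpa using this
    have h00 : r (D.π g 0 0) = (a : B) := by simpa using congrArg (fun M : SL(2, B) => M 0 0) hg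
    apply Subtype.ext
    show (g : Q) * D.U _ = D.U _ * (g : Q)
    rw [D.conjU _ h10, mul_left_comm]
    congr 2
    apply sub_eq_zero.1
    rw [← mul_sub]
    exact hker _ (by simp [Function.surjInv_eq hr, h00])
  conjL g a x hg := by
    have h01 : D.π g 0 1 = 0 := by
      have := D.entry_eq_of_red r he hker g.2 0 1
        (by simpa using congrArg (fun M : SL(2, B) => M 0 1) hg)
      simpa using this
    have h11 : r (D.π g 1 1) = ((a⁻¹ : Bˣ) : B) := by
      simpa using congrArg (fun M : SL(2, B) => M 1 1) hg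
    apply Subtype.ext
    show (g : Q) * D.L _ = D.L _ * (g : Q)
    rw [D.conjL _ h01, mul_left_comm]
    congr 2
    apply sub_eq_zero.1
    rw [← mul_sub]
    exact hker _ (by simp [Function.surjInv_eq hr, h11])
  w1U x := by
    apply Subtype.ext
    exact (D.part_w hr he hf hef hker x).1
  w1L x := by
    apply Subtype.ext
    exact (D.part_w hr he hf hef hker x).2
  generate := by
    rw [eq_top_iff]
    refine le_trans (le_of_eq (Subgroup.closure_closure_coe_preimage
      (k := Set.range (fun x => D.U ((e : A) * x)) ∪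
        Set.range (fun x => D.L ((e : A) * x)))).symm) ?_
    refine (Subgroup.closure_le _).2 ?_
    rintro ⟨_, hm⟩ (⟨x, rfl⟩ | ⟨x, rfl⟩)
    · refine Subgroup.subset_closure (Or.inl ⟨r x, Subtype.ext ?_⟩)
      show D.U _ = D.U _
      congr 1
      apply sub_eq_zero.1
      rw [← mul_sub]
      exact hker _ (by simp [Function.surjInv_eq hr])
    · refine Subgroup.subset_closure (Or.inr ⟨r x, Subtype.ext ?_⟩)
      show D.L _ = D.L _
      congr 1
      apply sub_eq_zero.1
      rw [← mul_sub]
      exact hker _ (by simp [Function.surjInv_eq hr])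

section ZModN

variable {N : ℕ} [NeZero N] (D : GlobalData (ZMod N) k Q)

/-- A natural number representing the idempotent of the prime `l`. -/
def idem (N l : ℕ) : ℕ :=
  N / l ^ N.factorization l *
    (((N / l ^ N.factorization l : ℕ) : ZMod (l ^ N.factorization l))⁻¹).val

/-- Reduction to the component of `l`. -/
def rl (N l : ℕ) : ZMod N →+* ZMod (l ^ N.factorization l) :=
  ZMod.castHom (Nat.ordProj_dvd N l) _

theorem rl_idem_self {l : ℕ} (hl : l.Prime) : rl N l (idem N l : ZMod N) = 1 := by
  have : NeZero (l ^ N.factorization l) := ⟨pow_ne_zero _ hl.ne_zero⟩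
  rw [map_natCast, idem, Nat.cast_mul, ZMod.natCast_zmod_val]
  refine ZMod.mul_inv_of_unit _ ((ZMod.isUnit_iff_coprime _ _).2 ?_)
  exact ((Nat.coprime_ordCompl hl (NeZero.ne N)).pow_left _).symm

omit [NeZero N] in
theorem rl_idem_ne {l l' : ℕ} (hl : l.Prime) (hl' : l'.Prime) (h : l ≠ l') :
    rl N l (idem N l' : ZMod N) = 0 := by
  rw [map_natCast, ZMod.natCast_eq_zero_iff]
  refine Dvd.dvd.mul_right ?_ _
  refine (Nat.Coprime.dvd_of_dvd_mul_left ?_
    (by rw [Nat.ordProj_mul_ordCompl_eq_self]; exact Nat.ordProj_dvd N l) :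
      l ^ N.factorization l ∣ N / l' ^ N.factorization l')
  exact Nat.Coprime.pow _ _ ((Nat.coprime_primes hl hl').2 h)

theorem idem_mul_eq_zero {l : ℕ} (a : ZMod N) (h : rl N l a = 0) :
    (idem N l : ZMod N) * a = 0 := by
  rw [← ZMod.natCast_zmod_val a, map_natCast, ZMod.natCast_eq_zero_iff] at h
  rw [← ZMod.natCast_zmod_val a, ← Nat.cast_mul, ZMod.natCast_eq_zero_iff]
  obtain ⟨j, hj⟩ := h
  refine ⟨((((N / l ^ N.factorization l : ℕ) : ZMod (l ^ N.factorization l))⁻¹).val) * j, ?_⟩
  rw [idem, hj]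
  generalize (((N / l ^ N.factorization l : ℕ) : ZMod (l ^ N.factorization l))⁻¹).val = c
  linear_combination (c * j : ℕ) * Nat.ordProj_mul_ordCompl_eq_self N l

theorem eq_zero_of_rl {a : ZMod N} (h : ∀ l ∈ N.primeFactors, rl N l a = 0) : a = 0 := by
  rw [← ZMod.natCast_zmod_val a, ZMod.natCast_eq_zero_iff, Nat.dvd_iff_prime_pow_dvd_dvd]
  intro l k hl hk
  rcases Nat.eq_zero_or_pos k with rfl | hk0
  · simp
  have hlN : l ∈ N.primeFactors :=
    Nat.mem_primeFactors.2 ⟨hl, (dvd_pow_self l hk0.ne').trans hk, NeZero.ne N⟩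
  have h' := h l hlN
  rw [← ZMod.natCast_zmod_val a, map_natCast, ZMod.natCast_eq_zero_iff] at h'
  exact (pow_dvd_pow l ((hl.pow_dvd_iff_le_factorization (NeZero.ne N)).1 hk)).trans h'

theorem idem_sq {l : ℕ} (hl : l.Prime) :
    (idem N l : ZMod N) * (idem N l : ZMod N) = (idem N l : ZMod N) := by
  have h := idem_mul_eq_zero (l := l) ((idem N l : ZMod N) - 1)
    (by rw [map_sub, rl_idem_self hl, map_one, sub_self])
  linear_combination h

/-- Over `ℤ/N` the extension is trivial. -/
theorem injective_zmod (h2 : (2 : k) ≠ 0) {g : Q} (hg : D.π g = 1) : g = 1 := by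
  have key : ∀ S : Finset ℕ, S ⊆ N.primeFactors →
      ∀ g ∈ D.part ((∑ l ∈ S, idem N l : ℕ) : ZMod N), D.π g = 1 → g = 1 := by
    intro S
    induction S using Finset.induction_on with
    | empty =>
      intro _ g hg _
      have : D.part ((∑ l ∈ (∅ : Finset ℕ), idem N l : ℕ) : ZMod N) ≤ ⊥ := by
        rw [part, Subgroup.closure_le]
        rintro _ (⟨x, rfl⟩ | ⟨x, rfl⟩) <;> simp [D.U_zero, D.L_zero]
      exact Subgroup.mem_bot.1 (this hg)
    | @insert l S hlS ih =>
      intro hS g hg hπ
      have hl : l.Prime := Nat.prime_of_mem_primeFactors (hS (Finset.mem_insert_self l S))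
      have hS' : S ⊆ N.primeFactors := fun x hx => hS (Finset.mem_insert_of_mem hx)
      set e : ℕ := idem N l
      set E : ℕ := ∑ l' ∈ S, idem N l' with hE
      have heE : (e : ZMod N) * (E : ZMod N) = 0 := by
        rw [hE, Nat.cast_sum, Finset.mul_sum]
        refine Finset.sum_eq_zero fun l' hl' => idem_mul_eq_zero _ ?_
        exact rl_idem_ne hl (Nat.prime_of_mem_primeFactors (hS' hl')) (by rintro rfl; exact hlS hl')
      have hEE : (E : ZMod N) * (E : ZMod N) = (E : ZMod N) := by
        rw [hE, Nat.cast_sum, Finset.sum_mul]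
        refine Finset.sum_congr rfl fun a ha => ?_
        rw [Finset.mul_sum, Finset.sum_eq_single a]
        · exact idem_sq (Nat.prime_of_mem_primeFactors (hS' ha))
        · exact fun b hb hba => idem_mul_eq_zero _ (rl_idem_ne
            (Nat.prime_of_mem_primeFactors (hS' ha)) (Nat.prime_of_mem_primeFactors (hS' hb))
            (Ne.symm hba))
        · exact fun h => absurd ha h
      obtain ⟨g₁, hg₁, g₂, hg₂, rfl⟩ : ∃ a ∈ D.part (e : ZMod N), ∃ b ∈ D.part (E : ZMod N),
          g = a * b := by
        have hc : ∀ a ∈ D.part (e : ZMod N), ∀ b ∈ D.part (E : ZMod N), Commute a b :=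
          fun a ha b hb => D.part_comm (idem_sq hl) hEE heE ha hb
        let K : Subgroup Q :=
          { carrier := {g | ∃ a ∈ D.part (e : ZMod N), ∃ b ∈ D.part (E : ZMod N), g = a * b}
            one_mem' := ⟨1, one_mem _, 1, one_mem _, (mul_one 1).symm⟩
            mul_mem' := by
              rintro _ _ ⟨a, ha, b, hb, rfl⟩ ⟨a', ha', b', hb', rfl⟩
              refine ⟨a * a', mul_mem ha ha', b * b', mul_mem hb hb', ?_⟩
              exact (hc a' ha' b hb).symm.mul_mul_mul_comm a b'
            inv_mem' := by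
              rintro _ ⟨a, ha, b, hb, rfl⟩
              refine ⟨a⁻¹, inv_mem ha, b⁻¹, inv_mem hb, ?_⟩
              rw [(hc a ha b hb).eq, mul_inv_rev] }
        have hle : D.part ((∑ l' ∈ insert l S, idem N l' : ℕ) : ZMod N) ≤ K := by
          rw [part, Subgroup.closure_le]
          rintro _ (⟨x, rfl⟩ | ⟨x, rfl⟩)
          · refine ⟨_, D.U_mem_part _ x, _, D.U_mem_part _ x, ?_⟩
            rw [← D.U_add]
            simp only [Finset.sum_insert hlS, Nat.cast_add, add_mul]
            rfl
          · refine ⟨_, D.L_mem_part _ x, _, D.L_mem_part _ x, ?_⟩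
            rw [← D.L_add]
            simp only [Finset.sum_insert hlS, Nat.cast_add, add_mul]
            rfl
        exact hle hg
      have h2' : Matrix.SpecialLinearGroup.map (rl N l) (D.π g₂) = 1 := by
        refine D.map_π_part _ _ ?_ hg₂
        rw [hE, Nat.cast_sum, map_sum]
        exact Finset.sum_eq_zero fun l' hl' => rl_idem_ne hl
          (Nat.prime_of_mem_primeFactors (hS' hl')) (by rintro rfl; exact hlS hl')
      have : Fact l.Prime := ⟨hl⟩
      have hk : N.factorization l ≠ 0 :=
        Finsupp.mem_support_iff.1 (by rw [Nat.support_factorization]; exact hS (Finset.mem_insert_self l S))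
      have hr : Function.Surjective (rl N l) := ZMod.ringHom_surjective _
      set f : ℕ := (1 - (e : ZMod N)).val
      have hf : (f : ZMod N) = 1 - (e : ZMod N) := ZMod.natCast_zmod_val _
      set C := D.component (rl N l) hr (idem_sq hl) (f := f)
        (by rw [hf]; linear_combination idem_sq (N := N) hl) (by rw [hf]; ring) (rl_idem_self hl)
        (idem_mul_eq_zero)
      have h1 : Matrix.SpecialLinearGroup.map (rl N l) (D.π g₁) = 1 := by
        have := congrArg (Matrix.SpecialLinearGroup.map (rl N l)) hπ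
        rw [map_mul, map_mul, h2', mul_one, map_one] at this
        exact this
      have hg1 : (⟨g₁, hg₁⟩ : D.part (e : ZMod N)) = 1 :=
        LocalData.injective_zmod hk h2 C h1
      have hg1' : g₁ = 1 := congrArg Subtype.val hg1
      rw [hg1', one_mul] at hπ ⊢
      exact ih hS' g₂ hg₂ hπ
  refine key N.primeFactors subset_rfl g ?_ hg
  have h1 : ((∑ l ∈ N.primeFactors, idem N l : ℕ) : ZMod N) = 1 := by
    rw [← sub_eq_zero]
    refine eq_zero_of_rl fun l hl => ?_
    have hlp := Nat.prime_of_mem_primeFactors hl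
    rw [map_sub, map_one, Nat.cast_sum, map_sum, Finset.sum_eq_single l, rl_idem_self hlp, sub_self]
    · exact fun b hb hbl => rl_idem_ne hlp (Nat.prime_of_mem_primeFactors hb) (Ne.symm hbl)
    · exact fun h => absurd hl h
  rw [h1]
  have : D.part (1 : ZMod N) = ⊤ := by
    rw [part, ← D.generate]
    congr 2 <;> simp
  rw [this]
  exact Subgroup.mem_top g

end ZModN

end GlobalData

end Fermat.Agent.IharaGroup

end
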