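import Fermat.Agent.IharaGroup.QInts
import Fermat.Agent.IharaGroup.Components
import Mathlib.GroupTheory.Archimedean

/-!
# The quotient of `SL₂(ℤ[1/q])` attached to a homomorphism on `Γ₀(N)[1/q]`

Given an additive function `hfun` on `{g | red g 1 0 = 0}` killing the elements of trace `2`, the
largest normal subgroup `kh` of `SL₂(ℤ[1/q])` inside the principal congruence subgroup on which
`hfun` vanishes gives a quotient with a central congruence kernel (`conj_rel`), i.e. a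
`GlobalData` over `ℤ/N`.
-/

set_option autoImplicit false

noncomputable section

open scoped MatrixGroups

open Matrix

namespace Fermat.Agent.IharaGroup

section Elementary

variable {A : Type*} [CommRing A]

theorem conj_uMat (g : SL(2, A)) (x : A) :
    ((g * uMat x * g⁻¹ : SL(2, A)) : Matrix (Fin 2) (Fin 2) A) =
      !![1 - x * g 0 0 * g 1 0, x * g 0 0 ^ 2; -(x * g 1 0 ^ 2), 1 + x * g 0 0 * g 1 0] := by
  have hdet : g 0 0 * g 1 1 - g 0 1 * g 1 0 = 1 := by
    rw [← Matrix.det_fin_two]; exact g.prop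
  ext i j
  fin_cases i <;> fin_cases j <;>
    simp [Matrix.mul_apply, Fin.sum_univ_two, Matrix.SpecialLinearGroup.coe_inv,
      Matrix.adjugate_fin_two]
  · linear_combination hdet
  · ring
  · ring
  · linear_combination hdet

/-- Conjugation preserves the trace. -/
theorem trace_conj (s g : SL(2, A)) :
    (s * g * s⁻¹) 0 0 + (s * g * s⁻¹) 1 1 = g 0 0 + g 1 1 := by
  have hdet : s 0 0 * s 1 1 - s 0 1 * s 1 0 = 1 := by
    rw [← Matrix.det_fin_two]; exact s.prop
  simp [Matrix.mul_apply, Fin.sum_univ_two, Matrix.SpecialLinearGroup.coe_inv,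
    Matrix.adjugate_fin_two]
  linear_combination (g 0 0 + g 1 1) * hdet

/-- Ring homomorphisms preserve upper unipotent matrices. -/
theorem map_uMat {B : Type*} [CommRing B] (f : A →+* B) (x : A) :
    SpecialLinearGroup.map f (uMat x) = uMat (f x) := by
  ext i j; fin_cases i <;> fin_cases j <;> simp

/-- Ring homomorphisms preserve lower unipotent matrices. -/
theorem map_lMat {B : Type*} [CommRing B] (f : A →+* B) (x : A) :
    SpecialLinearGroup.map f (lMat x) = lMat (f x) := by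
  ext i j; fin_cases i <;> fin_cases j <;> simp

/-- `uMat 0 = 1`. -/
theorem uMat_zero : (uMat 0 : SL(2, A)) = 1 := by
  ext i j; fin_cases i <;> fin_cases j <;> simp

theorem uMat_neg (x : A) : uMat (-x) = (uMat x)⁻¹ :=
  eq_inv_of_mul_eq_one_left (by rw [← uMat_add]; ext i j; fin_cases i <;> fin_cases j <;> simp)

/-- `diag (t, 1/t)` as a product of four unipotents. -/
theorem dMat_eq_unipotents (t : Aˣ) (x y : A) (h : (t : A) = 1 + x * y) :
    dMat t = uMat x * lMat y * uMat (-(((t⁻¹ : Aˣ) : A) * x)) * lMat (-((t : A) * y)) := by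
  have ht : (t : A) * ((t⁻¹ : Aˣ) : A) = 1 := Units.mul_inv t
  ext i j
  fin_cases i <;> fin_cases j <;> simp [Matrix.mul_apply, Fin.sum_univ_two]
  · linear_combination (1 + (t : A) * x * y * ((t⁻¹ : Aˣ) : A)) * h - ((t : A) * x * y) * ht
  · linear_combination (-(((t⁻¹ : Aˣ) : A) * x)) * h + x * ht
  · linear_combination y * h - x * y ^ 2 * ht
  · linear_combination (-((t⁻¹ : Aˣ) : A)) * h + ht

/-- `S = (0 1; -1 0)` as a product of unipotents. -/
def wMat : SL(2, A) := uMat 1 * lMat (-1) * uMat 1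

/-- `wMat` carries upper unipotent matrices to lower ones. -/
theorem wMat_uMat (x : A) : wMat * uMat x = lMat (-x) * wMat := by
  ext i j; fin_cases i <;> fin_cases j <;> simp [wMat, Matrix.mul_apply, Fin.sum_univ_two]

/-- `wMat` carries lower unipotent matrices to upper ones. -/
theorem wMat_lMat (x : A) : wMat * lMat x = uMat (-x) * wMat := by
  ext i j; fin_cases i <;> fin_cases j <;> simp [wMat, Matrix.mul_apply, Fin.sum_univ_two]

theorem conj_wMat (g : SL(2, A)) :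
    ((wMat * g * wMat⁻¹ : SL(2, A)) : Matrix (Fin 2) (Fin 2) A) =
      !![g 1 1, -g 1 0; -g 0 1, g 0 0] := by
  ext i j
  fin_cases i <;> fin_cases j <;>
    simp [wMat, Matrix.mul_apply, Fin.sum_univ_two, Matrix.SpecialLinearGroup.coe_inv,
      Matrix.adjugate_fin_two, Matrix.vecMul, dotProduct]

end Elementary

section LTE

/-- The binomial expansion of `(1 + w) ^ n` to first order. -/
theorem one_add_pow_eq (n : ℕ) (w : ℤ) :
    ∃ X : ℤ, (1 + w) ^ n = 1 + n * w + w ^ 2 * X := by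
  induction n with
  | zero => exact ⟨0, by simp⟩
  | succ n ih =>
    obtain ⟨X, hX⟩ := ih
    exact ⟨n + X + w * X, by rw [pow_succ, hX]; push_cast; ring⟩

theorem lte (l : ℕ) {w : ℤ} (h : (l : ℤ) ^ 2 ∣ w) (i : ℕ) :
    ∃ t : ℤ, (1 + w) ^ (l ^ i) = 1 + (l : ℤ) ^ i * w * (1 + (l : ℤ) * t) := by
  induction i with
  | zero => exact ⟨0, by simp⟩
  | succ i ih =>
    obtain ⟨t, ht⟩ := ih
    obtain ⟨v, rfl⟩ := h
    obtain ⟨X, hX⟩ := one_add_pow_eq l ((l : ℤ) ^ i * ((l : ℤ) ^ 2 * v) * (1 + (l : ℤ) * t))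
    refine ⟨t + (l : ℤ) ^ i * v * (1 + (l : ℤ) * t) ^ 2 * X, ?_⟩
    rw [pow_succ l i, pow_mul, ht, hX]
    ring

/-- For `M` prime to `q` there is `n` with `M * l ^ K * u = q ^ n - 1`, `u` prime to `l`. -/
theorem exists_pow_sub_one (q l : ℕ) (hq : q.Prime) (hl : l.Prime) (hlq : l ≠ q) (M : ℤ) (N : ℕ)
    (hM : ¬ (q : ℤ) ∣ M) (hN : ¬ q ∣ N) :
    ∃ d : ℕ, ∀ K : ℕ, d ≤ K → ∃ (n : ℕ) (u : ℤ), ¬ (l : ℤ) ∣ u ∧
      (q : ℤ) ^ n - 1 = M * (l : ℤ) ^ K * u ∧ ((N : ℤ) ^ 2 ∣ (q : ℤ) ^ n - 1) := by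
  have hM0 : M ≠ 0 := fun h => hM (h ▸ dvd_zero _)
  have hN0 : N ≠ 0 := fun h => hN (h ▸ dvd_zero _)
  set M₁ : ℕ := M.natAbs * l ^ 2 * N ^ 2 with hM₁
  have hcop : q.Coprime M₁ := by
    refine ((Nat.Coprime.mul_right ?_ ?_).mul_right ?_)
    · exact hq.coprime_iff_not_dvd.2 fun h => hM (Int.natCast_dvd.2 h)
    · exact ((Nat.coprime_primes hq hl).2 hlq.symm).pow_right 2
    · exact (hq.coprime_iff_not_dvd.2 hN).pow_right 2
  set E : ℕ := M₁.totient
  have hM₁0 : 0 < M₁ := by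
    have := Int.natAbs_pos.2 hM0
    have := hl.pos
    positivity
  have hE : 0 < E := Nat.totient_pos.2 hM₁0
  have hdvd : (M₁ : ℤ) ∣ (q : ℤ) ^ E - 1 := by
    have h := Int.natCast_modEq_iff.2 (Nat.ModEq.pow_totient hcop)
    push_cast at h
    exact h.symm.dvd
  set w : ℤ := (q : ℤ) ^ E - 1 with hw
  have hw0 : w ≠ 0 := by
    have h1 : 1 < q ^ E := Nat.one_lt_pow hE.ne' hq.one_lt
    have h2 : (1 : ℤ) < (q : ℤ) ^ E := by exact_mod_cast h1
    omega
  have hMw : M ∣ w := by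
    refine dvd_trans ?_ hdvd
    rw [hM₁]; push_cast
    exact dvd_mul_of_dvd_left (dvd_mul_of_dvd_left ((dvd_abs _ _).2 dvd_rfl) _) _
  have hlw : (l : ℤ) ^ 2 ∣ w := by
    refine dvd_trans ?_ hdvd
    rw [hM₁]; push_cast
    exact dvd_mul_of_dvd_left (dvd_mul_left _ _) _
  have hNw : (N : ℤ) ^ 2 ∣ w := by
    refine dvd_trans ?_ hdvd
    rw [hM₁]; push_cast
    exact dvd_mul_left _ _
  obtain ⟨W, hW⟩ := hMw
  have hW0 : W ≠ 0 := fun h => hw0 (by rw [hW, h, mul_zero])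
  obtain ⟨u, hu, hndvd⟩ :=
    (Int.finiteMultiplicity_iff.2 ⟨by simpa using hl.ne_one, hW0⟩ :
      FiniteMultiplicity (l : ℤ) W).exists_eq_pow_mul_and_not_dvd
  refine ⟨multiplicity (l : ℤ) W, fun K hK => ?_⟩
  obtain ⟨t, ht⟩ := lte l hlw (K - multiplicity (l : ℤ) W)
  refine ⟨E * l ^ (K - multiplicity (l : ℤ) W), u * (1 + (l : ℤ) * t), ?_, ?_⟩
  · intro h
    rcases (Nat.prime_iff_prime_int.1 hl).dvd_or_dvd h with h | h
    · exact hndvd h
    · exact (Nat.prime_iff_prime_int.1 hl).not_dvd_one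
        (by simpa using (dvd_add_left (dvd_mul_right (l : ℤ) t)).1 h)
  have hq' : (q : ℤ) ^ (E * l ^ (K - multiplicity (l : ℤ) W)) - 1
      = (l : ℤ) ^ (K - multiplicity (l : ℤ) W) * w * (1 + (l : ℤ) * t) := by
    rw [pow_mul, show (q : ℤ) ^ E = 1 + w by rw [hw]; ring, ht]; ring
  constructor
  · rw [hq', hW]
    generalize hd : multiplicity (l : ℤ) W = d at hK hu ⊢
    rw [hu]
    conv_rhs => rw [show K = (K - d) + d by omega, pow_add]
    ring
  · rw [hq']
    exact dvd_mul_of_dvd_left (dvd_mul_of_dvd_right hNw _) _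

end LTE

/-- The input: `q`, `N` and a function additive on `Γ₀(N)[1/q]` killing trace `2` elements. -/
structure Setup (k : Type*) [Field k] where
  q : ℕ
  N : ℕ
  [hN : NeZero N]
  hq : q.Prime
  hqN : ¬ q ∣ N
  hfun : SL(2, qInts q) → k
  hfun_mul : ∀ g g', red (hq.coprime_iff_not_dvd.2 hqN) (g 1 0) = 0 →
    red (hq.coprime_iff_not_dvd.2 hqN) (g' 1 0) = 0 → hfun (g * g') = hfun g + hfun g'
  hfun_parabolic : ∀ g, red (hq.coprime_iff_not_dvd.2 hqN) (g 1 0) = 0 →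
    g 0 0 + g 1 1 = 2 → hfun g = 0

namespace Setup

variable {k : Type*} [Field k] (S : Setup k)

/-- Reduction of entries. -/
def rd : qInts S.q →+* ZMod S.N :=
  haveI := S.hN
  red (S.hq.coprime_iff_not_dvd.2 S.hqN)

/-- Reduction of matrices. -/
def ρ : SL(2, qInts S.q) →* SL(2, ZMod S.N) := SpecialLinearGroup.map S.rd

/-- The entries of `ρ g` are the reductions of those of `g`. -/
theorem ρ_entry (g : SL(2, qInts S.q)) (i j : Fin 2) : S.ρ g i j = S.rd (g i j) := rfl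

/-- `hfun` is additive on the preimage of the Borel subgroup. -/
theorem hfun_mul' {g g' : SL(2, qInts S.q)} (h : S.ρ g 1 0 = 0) (h' : S.ρ g' 1 0 = 0) :
    S.hfun (g * g') = S.hfun g + S.hfun g' := S.hfun_mul g g' h h'

/-- The kernel of `ρ` lies in the preimage of the Borel subgroup. -/
theorem ρ_ten_of_eq_one {g : SL(2, qInts S.q)} (h : S.ρ g = 1) : S.ρ g 1 0 = 0 := by
  rw [h]; rfl

theorem hfun_one : S.hfun 1 = 0 := by
  have h := S.hfun_mul' (g := 1) (g' := 1) (S.ρ_ten_of_eq_one (map_one _))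
    (S.ρ_ten_of_eq_one (map_one _))
  rw [mul_one] at h
  exact left_eq_add.1 h

theorem ρ_conj {g : SL(2, qInts S.q)} (h : S.ρ g = 1) (s : SL(2, qInts S.q)) :
    S.ρ (s * g * s⁻¹) = 1 := by
  rw [map_mul, map_mul, h, map_inv, mul_one, mul_inv_cancel]

/-- The kernel. -/
def kh : Subgroup SL(2, qInts S.q) where
  carrier := {g | S.ρ g = 1 ∧ ∀ s, S.hfun (s * g * s⁻¹) = 0}
  one_mem' := ⟨map_one _, fun s => by simp [S.hfun_one]⟩
  mul_mem' := fun {a b} ha hb => ⟨by rw [map_mul, ha.1, hb.1, mul_one], fun s => by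
    rw [show s * (a * b) * s⁻¹ = s * a * s⁻¹ * (s * b * s⁻¹) by group,
      S.hfun_mul' (S.ρ_ten_of_eq_one (S.ρ_conj ha.1 s)) (S.ρ_ten_of_eq_one (S.ρ_conj hb.1 s)),
      ha.2, hb.2, add_zero]⟩
  inv_mem' := fun {a} ha => ⟨by rw [map_inv, ha.1, inv_one], fun s => by
    have h := S.hfun_mul' (g := s * a⁻¹ * s⁻¹) (g' := s * a * s⁻¹)
      (S.ρ_ten_of_eq_one (S.ρ_conj (by rw [map_inv, ha.1, inv_one]) s))
      (S.ρ_ten_of_eq_one (S.ρ_conj ha.1 s))
    rw [show s * a⁻¹ * s⁻¹ * (s * a * s⁻¹) = 1 by group, S.hfun_one, ha.2, add_zero] at h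
    exact h.symm⟩

instance kh_normal : S.kh.Normal :=
  ⟨fun g hg s => ⟨S.ρ_conj hg.1 s, fun t => by
    rw [show t * (s * g * s⁻¹) * t⁻¹ = t * s * g * (t * s)⁻¹ by group]
    exact hg.2 _⟩⟩

theorem parabolic_mem_kh {g : SL(2, qInts S.q)} (h : S.ρ g = 1) (ht : g 0 0 + g 1 1 = 2) :
    g ∈ S.kh :=
  ⟨h, fun s => S.hfun_parabolic _ (S.ρ_ten_of_eq_one (S.ρ_conj h s))
    (by rw [trace_conj]; exact ht)⟩

theorem uMat_mem_kh {x : qInts S.q} (h : S.rd x = 0) : uMat x ∈ S.kh := by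
  refine S.parabolic_mem_kh ?_ (by norm_num)
  rw [ρ, map_uMat, h]
  ext i j; fin_cases i <;> fin_cases j <;> simp

/-- Lower unipotent matrices reducing to `1` lie in `kh`. -/
theorem lMat_mem_kh {x : qInts S.q} (h : S.rd x = 0) : lMat x ∈ S.kh := by
  refine S.parabolic_mem_kh ?_ (by norm_num)
  rw [ρ, map_lMat, h]
  ext i j; fin_cases i <;> fin_cases j <;> simp

/-- An element of the congruence subgroup with a unit upper left entry `≡ 1 mod N²`. -/
theorem mem_kh_of_diag {g : SL(2, qInts S.q)} (h : S.ρ g = 1) (t : (qInts S.q)ˣ)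
    (ht : g 0 0 = (t : qInts S.q)) (y : qInts S.q) (hy : S.rd y = 0)
    (hty : (t : qInts S.q) = 1 + (S.N : qInts S.q) * y) : g ∈ S.kh := by
  have hN : S.rd (S.N : qInts S.q) = 0 := by rw [map_natCast, ZMod.natCast_self]
  have hd : dMat t ∈ S.kh := by
    rw [dMat_eq_unipotents t _ y hty]
    refine mul_mem (mul_mem (mul_mem (S.uMat_mem_kh hN) (S.lMat_mem_kh hy))
      (S.uMat_mem_kh ?_)) (S.lMat_mem_kh ?_) <;> simp [hN, hy]
  have hdec : g = lMat (((t⁻¹ : (qInts S.q)ˣ) : qInts S.q) * g 1 0) * dMat t *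
      uMat (((t⁻¹ : (qInts S.q)ˣ) : qInts S.q) * g 0 1) := by
    have hdet : g 0 0 * g 1 1 - g 0 1 * g 1 0 = 1 := by
      rw [← Matrix.det_fin_two]; exact g.prop
    have htt := Units.mul_inv t
    rw [ht] at hdet
    ext i j
    fin_cases i <;> fin_cases j <;>
      simp only [Matrix.SpecialLinearGroup.coe_mul, coe_lMat, coe_dMat, coe_uMat] <;>
      refine congrArg Subtype.val ?_ <;> simp [Matrix.mul_apply, Fin.sum_univ_two, ht]
    all_goals first
      | linear_combination -(g 0 1) * htt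
      | linear_combination -(g 1 0) * htt
      | linear_combination ((t⁻¹ : (qInts S.q)ˣ) : qInts S.q) * hdet -
          (g 1 1 + g 1 0 * g 0 1 * ((t⁻¹ : (qInts S.q)ˣ) : qInts S.q)) * htt
  have h10 : S.rd (g 1 0) = 0 := S.ρ_ten_of_eq_one h
  have h01 : S.rd (g 0 1) = 0 := by rw [← S.ρ_entry, h]; rfl
  rw [hdec]
  exact mul_mem (mul_mem (S.lMat_mem_kh (by simp [h10])) hd) (S.uMat_mem_kh (by simp [h01]))

/-- The quotient. -/
abbrev Quot : Type := SL(2, qInts S.q) ⧸ S.kh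

/-- The projection. -/
def pr : SL(2, qInts S.q) →* S.Quot := QuotientGroup.mk' S.kh

/-- The kernel of `pr` is `kh`. -/
theorem pr_eq_one {g : SL(2, qInts S.q)} : S.pr g = 1 ↔ g ∈ S.kh :=
  QuotientGroup.eq_one_iff g

/-- `pr (uMat x)` depends only on the reduction of `x` modulo `N`. -/
theorem pr_uMat_congr {x y : qInts S.q} (h : S.rd x = S.rd y) :
    S.pr (uMat x) = S.pr (uMat y) := by
  rw [← mul_inv_eq_one, ← map_inv, ← map_mul, ← uMat_neg, ← uMat_add, pr_eq_one]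
  exact S.uMat_mem_kh (by rw [map_add, map_neg, h, add_neg_cancel])

/-- `conj_rel`, for a single prime `l ∣ N`: some `x` prime to `l` satisfies the relation. -/
theorem exists_rel_prime {l : ℕ} (hl : l.Prime) (hlN : l ∣ S.N) (γ : SL(2, qInts S.q))
    (hγ : S.ρ γ 1 0 = 0) :
    ∃ (x : qInts S.q) (K : ℕ) (m : ℤ), ¬ (l : ℤ) ∣ m ∧
      (S.q : qInts S.q) ^ K * x = (m : qInts S.q) ∧
      S.pr γ * S.pr (uMat x) = S.pr (uMat (γ 0 0 ^ 2 * x)) * S.pr γ := by
  have := S.hN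
  have hq0 := S.hq.ne_zero
  set a := γ 0 0 with ha
  set c := γ 1 0 with hc
  rcases eq_or_ne c 0 with hc0 | hc0
  · refine ⟨1, 0, 1, ?_, by simp, ?_⟩
    · exact fun h => (Nat.prime_iff_prime_int.1 hl).not_dvd_one h
    · rw [← map_mul, ← map_mul]
      congr 1
      rw [← mul_inv_eq_iff_eq_mul]
      refine Subtype.ext ?_
      rw [conj_uMat]
      ext i j
      fin_cases i <;> fin_cases j <;> simp [← hc, hc0, ← ha]
  have hlq : l ≠ S.q := fun h => S.hqN (h ▸ hlN)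
  have hc' : S.rd c = 0 := hγ
  have hua : IsUnit (S.rd a) := by
    have := isUnit_diag_of_lower_zero hγ
    rwa [S.ρ_entry] at this
  have ha0 : a ≠ 0 := by
    intro h
    rw [h, map_zero, isUnit_zero_iff] at hua
    have h1 : S.N = 1 := by
      have := ZMod.subsingleton_iff.1 (subsingleton_of_zero_eq_one hua)
      exact this
    rw [h1] at hlN
    exact hl.one_lt.ne' (Nat.dvd_one.1 hlN)
  obtain ⟨i, j, a', ha'q, hia⟩ := exists_pow_mul_eq_pow_mul S.hq a ha0
  obtain ⟨i', j', c', hc'q, hic⟩ := exists_pow_mul_eq_pow_mul S.hq c hc0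
  have hla : ¬ (l : ℤ) ∣ a' := by
    intro hdvd
    have hu : IsUnit (S.rd ((S.q : qInts S.q) ^ i * a)) := by
      rw [map_mul]; exact ((isUnit_q_pow hq0 i).map S.rd).mul hua
    rw [hia, map_mul, map_intCast] at hu
    have h2 := isUnit_of_mul_isUnit_right hu
    have h3 := h2.map (ZMod.castHom hlN (ZMod l))
    rw [map_intCast, (ZMod.intCast_zmod_eq_zero_iff_dvd a' l).2 hdvd] at h3
    have := Fact.mk hl
    exact not_isUnit_zero h3
  obtain ⟨d, hd⟩ := exists_pow_sub_one S.q l S.hq hl hlq (a' * c') S.N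
    (fun h => ((Nat.prime_iff_prime_int.1 S.hq).dvd_or_dvd h).elim ha'q hc'q) S.hqN
  set K : ℕ := d * a'.natAbs.totient with hK
  have hφ : 0 < a'.natAbs.totient :=
    Nat.totient_pos.2 (Int.natAbs_pos.2 (fun h => ha'q (h ▸ dvd_zero _)))
  obtain ⟨n, u, hu, hn, hnN⟩ := hd K (Nat.le_mul_of_pos_right d hφ)
  obtain ⟨v, hv⟩ : a' ∣ (l : ℤ) ^ K - 1 := by
    have hcop : l.Coprime a'.natAbs :=
      hl.coprime_iff_not_dvd.2 fun h => hla (Int.natCast_dvd.2 h)
    have h := Nat.ModEq.pow d (Nat.ModEq.pow_totient hcop)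
    rw [one_pow, ← pow_mul, mul_comm, ← hK] at h
    have h' := (Int.natCast_modEq_iff.2 h).symm.dvd
    push_cast at h'
    exact (Int.abs_eq_natAbs a' ▸ h' : |a'| ∣ (l : ℤ) ^ K - 1) |> (abs_dvd _ _).1
  -- replace `γ` by `lMat y * γ`, multiplying the lower left entry by `l ^ K`
  set s : qInts S.q := ((l : qInts S.q)) ^ K with hs
  set y : qInts S.q := c * qFrac hq0 (v * (S.q : ℤ) ^ i) j with hy
  have hay : y * a = c * (s - 1) := by
    apply (isUnit_q_pow hq0 (i + j)).mul_left_cancel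
    have h1 := pow_mul_qFrac hq0 (v * (S.q : ℤ) ^ i) j
    have h2 : ((a' : ℤ) : qInts S.q) * (v : qInts S.q) = s - 1 := by
      rw [hs, ← Int.cast_mul, ← hv]; push_cast; rfl
    push_cast at h1
    rw [hy, ← h2, pow_add]
    linear_combination
      (c * (S.q : qInts S.q) ^ j * qFrac hq0 (v * (S.q : ℤ) ^ i) j) * hia +
      (c * (S.q : qInts S.q) ^ j * (a' : qInts S.q)) * h1
  set γ' : SL(2, qInts S.q) := lMat y * γ with hγ'
  have hγ'pr : S.pr γ' = S.pr γ := by
    rw [hγ', map_mul, (S.pr_eq_one).2 (S.lMat_mem_kh ?_), one_mul]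
    rw [hy, map_mul, hc', zero_mul]
  have h00 : γ' 0 0 = a := by simp [hγ', Matrix.mul_apply, Fin.sum_univ_two, ← ha]
  have h10 : γ' 1 0 = c * s := by
    simp [hγ', Matrix.mul_apply, Fin.sum_univ_two, ← ha, ← hc]
    rw [hay]; ring
  set x : qInts S.q := qFrac hq0 (-(u * (S.q : ℤ) ^ (i + i'))) (j + j') with hx
  have hx' := pow_mul_qFrac hq0 (-(u * (S.q : ℤ) ^ (i + i'))) (j + j')
  refine ⟨x, j + j', -(u * (S.q : ℤ) ^ (i + i')), ?_, hx', ?_⟩
  · rw [dvd_neg]
    intro h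
    rcases (Nat.prime_iff_prime_int.1 hl).dvd_or_dvd h with h | h
    · exact hu h
    · exact hlq ((Nat.prime_dvd_prime_iff_eq hl S.hq).1
        (Int.natCast_dvd_natCast.1 ((Nat.prime_iff_prime_int.1 hl).dvd_of_dvd_pow h)))
  set g : SL(2, qInts S.q) := γ' * uMat x * γ'⁻¹ * uMat (-(a ^ 2 * x)) with hg
  have hg00 : g 0 0 = (S.q : qInts S.q) ^ n := by
    rw [hg, Matrix.SpecialLinearGroup.coe_mul, conj_uMat]
    simp [Matrix.mul_apply, Fin.sum_univ_two, h00, h10]
    have hn' : (S.q : qInts S.q) ^ n - 1 = (a' : qInts S.q) * c' * s * u := by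
      have h := congrArg (fun z : ℤ => (z : qInts S.q)) hn
      push_cast at h
      rw [h, hs]
    apply (isUnit_q_pow hq0 (j + j' + (i + i'))).mul_left_cancel
    push_cast at hx'
    rw [← hx] at hx'
    simp only [pow_add] at hx' ⊢
    linear_combination
      (-((S.q : qInts S.q) ^ i * (S.q : qInts S.q) ^ i' * a * c * s)) * hx' +
      ((S.q : qInts S.q) ^ i * (S.q : qInts S.q) ^ i' * u * s * (S.q : qInts S.q) ^ i' * c) * hia +
      ((S.q : qInts S.q) ^ i * (S.q : qInts S.q) ^ i' * u * s * (S.q : qInts S.q) ^ j *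
        (a' : qInts S.q)) * hic -
      ((S.q : qInts S.q) ^ i * (S.q : qInts S.q) ^ i' * (S.q : qInts S.q) ^ j *
        (S.q : qInts S.q) ^ j') * hn'
  have hρ : S.ρ g = 1 := by
    have e : S.rd (γ' 1 0) = 0 := by rw [h10, map_mul, hc', zero_mul]
    ext a' b'
    rw [S.ρ_entry, hg, Matrix.SpecialLinearGroup.coe_mul, conj_uMat]
    fin_cases a' <;> fin_cases b' <;>
      simp [Matrix.mul_apply, Fin.sum_univ_two, e, h00]
    ring
  obtain ⟨t, ht⟩ := isUnit_q_pow hq0 n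
  obtain ⟨z, hz⟩ := hnN
  have hmem : g ∈ S.kh := by
    refine S.mem_kh_of_diag hρ t (by rw [hg00, ht]) ((S.N : qInts S.q) * (z : qInts S.q))
      (by rw [map_mul, map_natCast, ZMod.natCast_self, zero_mul]) ?_
    have h := congrArg (fun z : ℤ => (z : qInts S.q)) hz
    push_cast at h
    rw [ht]
    linear_combination h
  rw [← S.pr_eq_one, hg, map_mul, uMat_neg, map_inv, mul_inv_eq_one, map_mul, map_mul, map_inv,
    hγ'pr, mul_inv_eq_iff_eq_mul] at hmem
  exact hmem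

/-- The conjugation relation: `γ U(x) = U(a² x) γ` in the quotient, `a` the upper left entry. -/
theorem conj_rel (γ : SL(2, qInts S.q)) (hγ : S.ρ γ 1 0 = 0) (x : qInts S.q) :
    S.pr γ * S.pr (uMat x) = S.pr (uMat (γ 0 0 ^ 2 * x)) * S.pr γ := by
  have := S.hN
  set P : qInts S.q → Prop :=
    fun x => S.pr γ * S.pr (uMat x) = S.pr (uMat (γ 0 0 ^ 2 * x)) * S.pr γ
  have hcongr : ∀ x y, S.rd x = S.rd y → P x → P y := by
    intro x y h hx
    show S.pr γ * _ = _
    rw [← S.pr_uMat_congr h, ← S.pr_uMat_congr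
      (show S.rd (γ 0 0 ^ 2 * x) = S.rd (γ 0 0 ^ 2 * y) by rw [map_mul, map_mul, h])]
    exact hx
  let I : AddSubgroup (qInts S.q) :=
    { carrier := {x | P x}
      zero_mem' := by
        show S.pr γ * _ = _
        rw [mul_zero, uMat_zero, map_one, mul_one, one_mul]
      add_mem' := fun {x y} hx hy => by
        show S.pr γ * _ = _
        rw [mul_add, uMat_add, uMat_add, map_mul, map_mul, ← mul_assoc, hx, mul_assoc, hy,
          ← mul_assoc]
      neg_mem' := fun {x} hx => by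
        show S.pr γ * _ = _
        rw [mul_neg, uMat_neg, uMat_neg, map_inv, map_inv]
        exact (SemiconjBy.inv_right (a := S.pr γ) hx : _) }
  let J : AddSubgroup ℤ := I.comap (Int.castAddHom (qInts S.q))
  obtain ⟨d, hd⟩ := Int.subgroup_cyclic J
  have hdvd : ∀ m : ℤ, m ∈ J → d ∣ m := by
    intro m hm
    rw [hd, AddSubgroup.mem_closure_singleton] at hm
    obtain ⟨r, rfl⟩ := hm
    exact ⟨r, by rw [smul_eq_mul, mul_comm]⟩
  have hNJ : (S.N : ℤ) ∈ J := by
    show P _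
    refine hcongr 0 _ ?_ I.zero_mem
    simp
  have hd1 : IsUnit d := by
    by_contra hne
    have hdN := hdvd _ hNJ
    have hne1 : d.natAbs ≠ 1 := fun h => hne (Int.isUnit_iff_natAbs_eq.2 h)
    obtain ⟨l, hl, hld⟩ := Nat.exists_prime_and_dvd hne1
    have hlN : l ∣ S.N := hld.trans (by simpa using Int.natAbs_dvd_natAbs.2 hdN)
    obtain ⟨x, K, m, hm, hKx, hx⟩ := S.exists_rel_prime hl hlN γ hγ
    have hmJ : m ∈ J := by
      show P _
      have : (m : qInts S.q) = (S.q ^ K : ℕ) • x := by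
        rw [nsmul_eq_mul, ← hKx]; push_cast; rfl
      simp only [Int.coe_castAddHom]
      rw [this]
      exact I.nsmul_mem hx _
    exact hm ((Int.natCast_dvd.2 hld).trans (hdvd m hmJ))
  have h1 : (1 : ℤ) ∈ J := by
    rw [hd, AddSubgroup.mem_closure_singleton]
    obtain ⟨u, rfl⟩ := hd1
    exact ⟨((u⁻¹ : ℤˣ) : ℤ), by rw [smul_eq_mul, Units.inv_mul]⟩
  have hnat : ((S.rd x).val : qInts S.q) ∈ I := by
    have := I.nsmul_mem (show ((1 : ℤ) : qInts S.q) ∈ I from h1) (S.rd x).val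
    simpa using this
  exact hcongr _ _ (by simp) hnat

/-- The relation for lower unipotents. -/
theorem conj_rel' (γ : SL(2, qInts S.q)) (hγ : S.ρ γ 0 1 = 0) (x : qInts S.q) :
    S.pr γ * S.pr (lMat x) = S.pr (lMat (γ 1 1 ^ 2 * x)) * S.pr γ := by
  set γ' := wMat * γ * wMat⁻¹ with hγ'
  have h10 : S.ρ γ' 1 0 = 0 := by
    rw [S.ρ_entry, hγ', conj_wMat]
    rw [S.ρ_entry] at hγ
    simp [hγ]
  have h := S.conj_rel γ' h10 (-x)
  have e00 : γ' 0 0 = γ 1 1 := by rw [hγ', conj_wMat]; simp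
  have e1 : ∀ z : qInts S.q, S.pr (uMat (-z)) = S.pr wMat * S.pr (lMat z) * (S.pr wMat)⁻¹ := by
    intro z
    rw [← map_mul, wMat_lMat, map_mul, mul_inv_cancel_right]
  rw [e00, mul_neg, e1, e1, hγ', map_mul, map_mul, map_inv] at h
  simp only [mul_assoc, inv_mul_cancel_left] at h
  simp only [← mul_assoc] at h
  have h' := mul_right_cancel h
  rw [mul_assoc, mul_assoc (S.pr wMat)] at h'
  exact mul_left_cancel h'

end Setup

end Fermat.Agent.IharaGroup

end
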