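import Mathlib.LinearAlgebra.Matrix.SpecialLinearGroup
import Mathlib.RingTheory.Nilpotent.Basic
import Mathlib.Tactic.FieldSimp
import Mathlib.Tactic.Group
import Mathlib.Tactic.LinearCombination

/-!
# Central extensions of `SL₂` of a local ring which split on the Borel subgroup

`LocalData A k Q` packages a group `Q` generated by two copies `U`, `L` of the additive group of
`A`, a homomorphism `π : Q →* SL(2, A)` and a function `θ : Q → k` which is additive on the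
preimage of the upper triangular subgroup and separates the kernel of `π`.  Under a vanishing
condition on `eta` (see `LocalZMod.lean`) the homomorphism `π` is injective (`eq_one_of_pi_eq_one`).
The proof is a normal form argument: every element is `U x * w * h a * U z` or `L y * h a * U z`.
-/

set_option autoImplicit false

noncomputable section

open scoped MatrixGroups Classical

namespace Fermat.Agent.IharaGroup

section Mat

variable {A : Type*} [CommRing A]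

/-- Upper unipotent matrix. -/
def uMat (x : A) : SL(2, A) := ⟨!![1, x; 0, 1], by simp [Matrix.det_fin_two]⟩

/-- Lower unipotent matrix. -/
def lMat (x : A) : SL(2, A) := ⟨!![1, 0; x, 1], by simp [Matrix.det_fin_two]⟩

/-- Diagonal matrix. -/
def dMat (a : Aˣ) : SL(2, A) := ⟨!![(a : A), 0; 0, ((a⁻¹ : Aˣ) : A)], by simp [Matrix.det_fin_two]⟩

/-- The entries of `uMat x`. -/
@[simp] theorem coe_uMat (x : A) : (uMat x : Matrix (Fin 2) (Fin 2) A) = !![1, x; 0, 1] := rfl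
/-- The entries of `lMat x`. -/
@[simp] theorem coe_lMat (x : A) : (lMat x : Matrix (Fin 2) (Fin 2) A) = !![1, 0; x, 1] := rfl
/-- The entries of `dMat a`. -/
@[simp] theorem coe_dMat (a : Aˣ) :
    (dMat a : Matrix (Fin 2) (Fin 2) A) = !![(a : A), 0; 0, ((a⁻¹ : Aˣ) : A)] := rfl

@[simp] theorem dMat_one : dMat (1 : Aˣ) = 1 := by
  ext i j; fin_cases i <;> fin_cases j <;> simp

theorem dMat_mul (a b : Aˣ) : dMat (a * b) = dMat a * dMat b := by
  ext i j; fin_cases i <;> fin_cases j <;> simp [Matrix.mul_apply, Fin.sum_univ_two, mul_comm]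

/-- An upper triangular matrix has unit diagonal. -/
theorem isUnit_diag_of_lower_zero {M : SL(2, A)} (hM : M 1 0 = 0) : IsUnit (M 0 0) := by
  have h := M.prop
  rw [Matrix.det_fin_two, hM, mul_zero, sub_zero] at h
  exact IsUnit.of_mul_eq_one _ h

theorem mul_apply_zero_zero {M M' : SL(2, A)} (hM' : M' 1 0 = 0) :
    (M * M') 0 0 = M 0 0 * M' 0 0 := by
  simp [Matrix.mul_apply, Fin.sum_univ_two, hM']

/-- Upper triangular matrices are closed under multiplication. -/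
theorem mul_apply_one_zero {M M' : SL(2, A)} (hM : M 1 0 = 0) (hM' : M' 1 0 = 0) :
    (M * M') 1 0 = 0 := by
  simp [Matrix.mul_apply, Fin.sum_univ_two, hM, hM']

theorem inv_apply_one_zero {M : SL(2, A)} (hM : M 1 0 = 0) : M⁻¹ 1 0 = 0 := by
  simp [Matrix.SpecialLinearGroup.coe_inv, Matrix.adjugate_fin_two, hM]

end Mat

/-- The data of a central extension of a subgroup of `SL(2, A)` split on the Borel subgroup. -/
structure LocalData (A k Q : Type*) [CommRing A] [Field k] [Group Q] where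
  U : A → Q
  L : A → Q
  π : Q →* SL(2, A)
  θ : Q → k
  U_add : ∀ x y, U (x + y) = U x * U y
  L_add : ∀ x y, L (x + y) = L x * L y
  π_U : ∀ x, π (U x) = uMat x
  π_L : ∀ x, π (L x) = lMat x
  θ_mul : ∀ g g', π g 1 0 = 0 → π g' 1 0 = 0 → θ (g * g') = θ g + θ g'
  θ_U : ∀ x, θ (U x) = 0
  θ_inj : ∀ g, π g = 1 → θ g = 0 → g = 1
  conjU : ∀ (g : Q) (a : Aˣ) (x : A), π g = dMat a → g * U x = U ((a : A) ^ 2 * x) * g
  conjL : ∀ (g : Q) (a : Aˣ) (x : A), π g = dMat a →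
    g * L x = L (((a⁻¹ : Aˣ) : A) ^ 2 * x) * g
  w1U : ∀ x, U 1 * L (-1) * U 1 * U x = L (-x) * (U 1 * L (-1) * U 1)
  w1L : ∀ x, U 1 * L (-1) * U 1 * L x = U (-x) * (U 1 * L (-1) * U 1)
  generate : Subgroup.closure (Set.range U ∪ Set.range L) = ⊤

namespace LocalData

variable {A k Q : Type*} [CommRing A] [Field k] [Group Q] (D : LocalData A k Q)

/-- `U 0 = 1`. -/
theorem U_zero : D.U 0 = 1 := by
  have h := D.U_add 0 0
  rw [add_zero] at h
  exact left_eq_mul.1 h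

/-- `L 0 = 1`. -/
theorem L_zero : D.L 0 = 1 := by
  have h := D.L_add 0 0
  rw [add_zero] at h
  exact left_eq_mul.1 h

theorem U_neg (x : A) : D.U (-x) = (D.U x)⁻¹ :=
  eq_inv_of_mul_eq_one_left (by rw [← D.U_add, neg_add_cancel, U_zero])

theorem L_neg (x : A) : D.L (-x) = (D.L x)⁻¹ :=
  eq_inv_of_mul_eq_one_left (by rw [← D.L_add, neg_add_cancel, L_zero])

/-- `w a` lifts `(0 a; -1/a 0)`. -/
def w (a : Aˣ) : Q := D.U (a : A) * D.L (-((a⁻¹ : Aˣ) : A)) * D.U (a : A)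

/-- `hh a` lifts `diag (a, 1/a)`. -/
def hh (a : Aˣ) : Q := D.w a * D.w (-1)

/-- The obstruction: the value of `θ` on the standard diagonal lifts. -/
def eta (a : Aˣ) : k := D.θ (D.hh a)

/-- The Borel condition. -/
def B (g : Q) : Prop := D.π g 1 0 = 0

theorem B_mul {g g' : Q} (h : D.B g) (h' : D.B g') : D.B (g * g') := by
  unfold B; rw [map_mul]; exact mul_apply_one_zero h h'

theorem B_inv {g : Q} (h : D.B g) : D.B g⁻¹ := by
  unfold B; rw [map_inv]; exact inv_apply_one_zero h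

theorem θ_one : D.θ 1 = 0 := by
  have h := D.θ_mul 1 1 (by simp) (by simp)
  rw [mul_one] at h
  simpa using h

theorem θ_inv {g : Q} (h : D.B g) : D.θ g⁻¹ = -D.θ g := by
  have h' := D.θ_mul g g⁻¹ h (D.B_inv h)
  rw [mul_inv_cancel, θ_one] at h'
  linear_combination -h'

theorem w_one : D.w 1 = D.U 1 * D.L (-1) * D.U 1 := by simp [w]

theorem w_neg (a : Aˣ) : D.w (-a) = (D.w a)⁻¹ := by
  simp only [w, inv_neg, Units.val_neg, neg_neg, U_neg, mul_inv_rev, L_neg]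
  rw [inv_inv, mul_assoc]

theorem π_w (a : Aˣ) :
    (D.π (D.w a) : Matrix (Fin 2) (Fin 2) A) = !![0, (a : A); -((a⁻¹ : Aˣ) : A), 0] := by
  simp [w, D.π_U, D.π_L]

theorem π_hh (a : Aˣ) : D.π (D.hh a) = dMat a := by
  apply Subtype.ext
  simp [hh, π_w]

theorem B_hh (a : Aˣ) : D.B (D.hh a) := by simp [B, π_hh]

theorem hh_one : D.hh 1 = 1 := by rw [hh, w_neg, mul_inv_cancel]

/-- `w a` is `hh a` times `w 1`. -/
theorem w_eq (a : Aˣ) : D.w a = D.hh a * D.w 1 := by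
  rw [hh, w_neg, inv_mul_cancel_right]

theorem w1_U (x : A) : D.w 1 * D.U x = D.L (-x) * D.w 1 := by rw [w_one]; exact D.w1U x

theorem w1_L (x : A) : D.w 1 * D.L x = D.U (-x) * D.w 1 := by rw [w_one]; exact D.w1L x

theorem hh_U (a : Aˣ) (x : A) : D.hh a * D.U x = D.U ((a : A) ^ 2 * x) * D.hh a :=
  D.conjU _ _ _ (D.π_hh a)

theorem hh_L (a : Aˣ) (x : A) :
    D.hh a * D.L x = D.L (((a⁻¹ : Aˣ) : A) ^ 2 * x) * D.hh a :=
  D.conjL _ _ _ (D.π_hh a)

theorem w_U (a : Aˣ) (x : A) :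
    D.w a * D.U x = D.L (-(((a⁻¹ : Aˣ) : A) ^ 2 * x)) * D.w a := by
  rw [w_eq, mul_assoc, w1_U, ← mul_assoc, hh_L, mul_neg, mul_assoc]

theorem w_L (a : Aˣ) (x : A) : D.w a * D.L x = D.U (-((a : A) ^ 2 * x)) * D.w a := by
  rw [w_eq, mul_assoc, w1_L, ← mul_assoc, hh_U, mul_neg, mul_assoc]

theorem w_alt (a : Aˣ) :
    D.w a = D.L (-((a⁻¹ : Aˣ) : A)) * D.U (a : A) * D.L (-((a⁻¹ : Aˣ) : A)) := by
  have h := D.w_U a (a : A)
  rw [show ((a⁻¹ : Aˣ) : A) ^ 2 * (a : A) = ((a⁻¹ : Aˣ) : A) by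
    rw [pow_two, mul_assoc, Units.inv_mul, mul_one]] at h
  apply mul_right_cancel (b := D.U (a : A))
  rw [h, w, ← mul_assoc, ← mul_assoc]

theorem hh_w (b a : Aˣ) : D.hh b * D.w a = D.w (a * b ^ 2) * D.hh b := by
  have e1 : (b : A) ^ 2 * (a : A) = ((a * b ^ 2 : Aˣ) : A) := by push_cast; ring
  have e2 : ((b⁻¹ : Aˣ) : A) ^ 2 * -((a⁻¹ : Aˣ) : A) = -(((a * b ^ 2)⁻¹ : Aˣ) : A) := by
    rw [mul_inv, ← inv_pow]; push_cast; ring
  calc D.hh b * D.w a
      = D.hh b * D.U a * D.L (-((a⁻¹ : Aˣ) : A)) * D.U a := by simp only [w, mul_assoc]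
    _ = D.U ((a * b ^ 2 : Aˣ) : A) * (D.hh b * D.L (-((a⁻¹ : Aˣ) : A))) * D.U a := by
        rw [hh_U, e1]; simp only [mul_assoc]
    _ = D.U ((a * b ^ 2 : Aˣ) : A) * D.L (-(((a * b ^ 2)⁻¹ : Aˣ) : A))
        * (D.hh b * D.U a) := by
        rw [hh_L, e2]; simp only [mul_assoc]
    _ = D.w (a * b ^ 2) * D.hh b := by rw [hh_U, e1]; simp only [w, mul_assoc]

theorem w1_hh_conj (b : Aˣ) :
    D.w 1 * D.hh b * (D.w 1)⁻¹ = (D.hh (b ^ 2))⁻¹ * D.hh b := by
  have h := D.hh_w b 1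
  rw [one_mul, D.w_eq (b ^ 2), mul_assoc] at h
  rw [mul_inv_eq_iff_eq_mul, mul_assoc, eq_inv_mul_iff_mul_eq]
  exact h.symm

theorem B_w1_hh_conj (b : Aˣ) : D.B (D.w 1 * D.hh b * (D.w 1)⁻¹) := by
  rw [w1_hh_conj]; exact D.B_mul (D.B_inv (D.B_hh _)) (D.B_hh _)

theorem θ_w1_hh_conj (b : Aˣ) :
    D.θ (D.w 1 * D.hh b * (D.w 1)⁻¹) = D.eta b - D.eta (b ^ 2) := by
  rw [w1_hh_conj, D.θ_mul _ _ (D.B_inv (D.B_hh _)) (D.B_hh _), θ_inv _ (D.B_hh _)]
  unfold eta; ring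

theorem eta_mul_sq (a b : Aˣ) : D.eta (a * b ^ 2) = D.eta a + D.eta (b ^ 2) := by
  have h := D.hh_w b a
  rw [D.w_eq a, D.w_eq (a * b ^ 2), ← mul_assoc] at h
  have h' : D.hh b * D.hh a = D.hh (a * b ^ 2) * (D.w 1 * D.hh b * (D.w 1)⁻¹) := by
    rw [← mul_assoc, ← mul_assoc, eq_mul_inv_iff_mul_eq]; exact h
  have h'' := congrArg D.θ h'
  rw [D.θ_mul _ _ (D.B_hh _) (D.B_hh _), D.θ_mul _ _ (D.B_hh _) (D.B_w1_hh_conj _),
    θ_w1_hh_conj] at h''
  unfold eta at h'' ⊢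
  linear_combination -h''

/-- `eta 1 = 0`. -/
theorem eta_one : D.eta 1 = 0 := by simp [eta, hh_one, θ_one]

/-! ### Normalisation -/

/-- `ξ a = eta (a ^ 2) / 2`. -/
def xi (a : Aˣ) : k := D.eta (a ^ 2) / 2

theorem xi_mul (a b : Aˣ) : D.xi (a * b) = D.xi a + D.xi b := by
  rw [xi, mul_pow, eta_mul_sq, add_div]; rfl

theorem xi_one : D.xi 1 = 0 := by simp [xi, eta_one]

/-- `ξ` of the upper left entry. -/
def xiOf (M : SL(2, A)) : k := if h : IsUnit (M 0 0) then D.xi h.unit else 0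

theorem xiOf_eq {M : SL(2, A)} (a : Aˣ) (h : M 0 0 = (a : A)) : D.xiOf M = D.xi a := by
  have hu : IsUnit (M 0 0) := h ▸ a.isUnit
  rw [xiOf, dif_pos hu]
  congr 1
  exact Units.ext (by simp [h])

theorem xiOf_mul {M M' : SL(2, A)} (hM : M 1 0 = 0) (hM' : M' 1 0 = 0) :
    D.xiOf (M * M') = D.xiOf M + D.xiOf M' := by
  obtain ⟨a, ha⟩ := isUnit_diag_of_lower_zero hM
  obtain ⟨b, hb⟩ := isUnit_diag_of_lower_zero hM'
  rw [D.xiOf_eq a ha.symm, D.xiOf_eq b hb.symm, ← xi_mul]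
  apply xiOf_eq
  rw [mul_apply_zero_zero hM', Units.val_mul, ha, hb]

/-- The data with `θ` normalised so that `eta` vanishes on squares. -/
def normalize : LocalData A k Q where
  U := D.U
  L := D.L
  π := D.π
  θ g := D.θ g - D.xiOf (D.π g)
  U_add := D.U_add
  L_add := D.L_add
  π_U := D.π_U
  π_L := D.π_L
  θ_mul g g' hg hg' := by
    rw [D.θ_mul g g' hg hg', map_mul, D.xiOf_mul hg hg']; ring
  θ_U x := by
    rw [D.θ_U, D.π_U, D.xiOf_eq 1 (by simp), xi_one, sub_zero]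
  θ_inj g hg h := by
    refine D.θ_inj g hg ?_
    rwa [hg, D.xiOf_eq 1 (by simp), xi_one, sub_zero] at h
  conjU := D.conjU
  conjL := D.conjL
  w1U := D.w1U
  w1L := D.w1L
  generate := D.generate

theorem eta_normalize (a : Aˣ) : D.normalize.eta a = D.eta a - D.xi a := by
  show D.θ (D.hh a) - D.xiOf (D.π (D.hh a)) = _
  rw [D.xiOf_eq a (by simp [π_hh])]
  rfl

/-- After normalisation `eta` vanishes on squares. -/
theorem eta_normalize_sq (h2 : (2 : k) ≠ 0) (b : Aˣ) : D.normalize.eta (b ^ 2) = 0 := by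
  rw [eta_normalize, xi]
  have := D.eta_mul_sq (b ^ 2) b
  rw [← pow_two] at this
  rw [this]
  field_simp
  ring

/-! ### Consequences of normalisation -/

variable (hn : ∀ b : Aˣ, D.eta (b ^ 2) = 0)
include hn

/-- After normalisation `eta` is invariant under squares. -/
theorem eta_mul_sq' (a b : Aˣ) : D.eta (a * b ^ 2) = D.eta a := by rw [eta_mul_sq, hn, add_zero]

omit hn in
theorem w1_sq : D.w 1 * D.w 1 = (D.hh (-1))⁻¹ := by
  rw [hh, w_neg, ← mul_inv_rev, inv_inv]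

omit hn in
theorem B_w_w (x y : Aˣ) : D.B (D.w x * D.w y) := by
  simp [B, π_w]

theorem θ_w_w (x y : Aˣ) : D.θ (D.w x * D.w y) = D.eta x + D.eta y - D.eta (-1) := by
  have h : D.w x * D.w y = D.hh x * (D.w 1 * D.hh y * (D.w 1)⁻¹) * (D.w 1 * D.w 1) := by
    rw [D.w_eq x, D.w_eq y]; group
  rw [h, D.θ_mul _ _ (D.B_mul (D.B_hh _) (D.B_w1_hh_conj _)) (by exact D.B_w_w 1 1),
    D.θ_mul _ _ (D.B_hh _) (D.B_w1_hh_conj _), θ_w1_hh_conj, hn, w1_sq D,
    θ_inv _ (D.B_hh _)]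
  unfold eta; ring

/-- `eta a + eta (-a) = eta (-1)` after normalisation. -/
theorem eta_add_eta_neg (a : Aˣ) : D.eta a + D.eta (-a) = D.eta (-1) := by
  have h := D.θ_w_w hn a (-a)
  rw [w_neg, mul_inv_cancel, θ_one] at h
  linear_combination -h

omit hn in
/-- `U r = L (1/r) * w r * L (1/r)`. -/
theorem U_eq (r : Aˣ) :
    D.U (r : A) = D.L ((r⁻¹ : Aˣ) : A) * D.w r * D.L ((r⁻¹ : Aˣ) : A) := by
  rw [w_alt, L_neg]; group

omit hn in
/-- `L y = U (1/y) * w (-1/y) * U (1/y)`. -/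
theorem L_eq (y : Aˣ) :
    D.L (y : A) = D.U ((y⁻¹ : Aˣ) : A) * D.w (-y⁻¹) * D.U ((y⁻¹ : Aˣ) : A) := by
  rw [w, inv_neg, inv_inv, Units.val_neg, Units.val_neg, neg_neg, U_neg]; group

/-- The relation coming from `1 = u + v`. -/
theorem eta_of_add_eq_one (u v : Aˣ) (huv : (u : A) + v = 1) :
    D.eta (u * v) = D.eta u + D.eta v := by
  set u' : A := ((u⁻¹ : Aˣ) : A) with hu'
  set v' : A := ((v⁻¹ : Aˣ) : A) with hv'
  have huu : (u : A) * u' = 1 := by simp [hu']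
  have hvv : (v : A) * v' = 1 := by simp [hv']
  set t : Aˣ := -(u * v⁻¹) with ht
  have ht' : ((t⁻¹ : Aˣ) : A) = -((v : A) * u') := by
    rw [ht, inv_neg, mul_inv, inv_inv]; push_cast; ring
  have htv : (t : A) = -((u : A) * v') := by rw [ht]; push_cast; ring
  -- first expansion
  have e1 : D.U 1 = D.L u' * D.U (t : A) * D.L ((v : A) * u' ^ 2) * (D.w u * D.w v) := by
    calc D.U 1 = D.U (u : A) * D.U (v : A) := by rw [← D.U_add, huv]
      _ = D.L u' * (D.w u * D.L (u' + v')) * (D.w v * D.L v') := by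
          rw [D.U_eq u, D.U_eq v, D.L_add]; simp only [← hu', ← hv', mul_assoc]
      _ = D.L u' * D.U (t : A) * (D.w u * (D.U (-(v : A)) * D.w v)) := by
          rw [D.w_L, D.w_L, show -((u : A) ^ 2 * (u' + v')) = (t : A) by
            rw [htv]; linear_combination
              (-(u : A)) * huu - (u : A) * v' * huv + (u : A) * hvv,
            show -((v : A) ^ 2 * v') = -(v : A) by linear_combination (-(v : A)) * hvv]
          simp only [mul_assoc]
      _ = _ := by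
          rw [← mul_assoc (D.w u), D.w_U, ← hu', mul_neg, neg_neg, mul_comm (u' ^ 2) (v : A)]
          simp only [mul_assoc]
  -- second expansion
  have e2 : D.L u' * D.U (t : A) * D.L ((v : A) * u' ^ 2) = D.U 1 * D.w (-1) * D.w t := by
    calc D.L u' * D.U (t : A) * D.L ((v : A) * u' ^ 2)
        = D.L (u' + ((t⁻¹ : Aˣ) : A)) *
          (D.w t * D.L (((t⁻¹ : Aˣ) : A) + (v : A) * u' ^ 2)) := by
          rw [D.U_eq t, D.L_add, D.L_add]; simp only [mul_assoc]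
      _ = D.L 1 * (D.U (-1) * D.w t) := by
          rw [D.w_L, ht', show u' + -((v : A) * u') = 1 by
            linear_combination (-u') * huv + huu,
            show -((t : A) ^ 2 * (-((v : A) * u') + (v : A) * u' ^ 2)) = -1 by
            rw [htv]
            linear_combination ((u : A) * v * v' ^ 2 - v * v' ^ 2 * (1 + (u : A) * u')) * huu
              + (v * v' ^ 2) * huv - (1 + (v : A) * v') * hvv]
      _ = D.U 1 * D.w (-1) * D.w t := by
          simp [w, U_neg, mul_assoc]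
  rw [e2] at e1
  have h1 : D.w (-1) * D.w t * (D.w u * D.w v) = 1 := by
    simpa [mul_assoc] using e1.symm
  have h := congrArg D.θ h1
  rw [D.θ_mul _ _ (D.B_w_w _ _) (D.B_w_w _ _), θ_w_w D hn, θ_w_w D hn, θ_one] at h
  have h3 := D.eta_add_eta_neg hn (u * v)
  have h4 : D.eta t = D.eta (-(u * v)) := by
    rw [← D.eta_mul_sq' hn t v, ht]; congr 1; rw [pow_two, neg_mul]; group
  linear_combination h3 - h + h4

/-! ### The element measuring the failure of `L y * U x` to be in normal form -/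

omit hn in
/-- For `m = 1 + x * y`: `L y * U x = U (x / m) * dd x y m * L (y / m)`. -/
def dd (x y : A) (m : Aˣ) : Q :=
  (D.U (((m⁻¹ : Aˣ) : A) * x))⁻¹ * (D.L y * D.U x) * (D.L (((m⁻¹ : Aˣ) : A) * y))⁻¹

omit hn in
theorem dd_spec (x y : A) (m : Aˣ) :
    D.L y * D.U x =
      D.U (((m⁻¹ : Aˣ) : A) * x) * D.dd x y m * D.L (((m⁻¹ : Aˣ) : A) * y) := by
  unfold dd; group

omit hn in
theorem π_dd (x y : A) (m : Aˣ) (hm : (m : A) = 1 + x * y) :
    D.π (D.dd x y m) = dMat m⁻¹ := by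
  have h := congrArg D.π (D.dd_spec x y m)
  simp only [map_mul, D.π_U, D.π_L] at h
  have key : lMat y * uMat x = uMat (((m⁻¹ : Aˣ) : A) * x) * dMat m⁻¹ *
      lMat (((m⁻¹ : Aˣ) : A) * y) := by
    have hmm : (m : A) * ((m⁻¹ : Aˣ) : A) = 1 := Units.mul_inv m
    ext i j
    fin_cases i <;> fin_cases j <;> simp [Matrix.mul_apply, Fin.sum_univ_two]
    · linear_combination (-((m⁻¹ : Aˣ) : A) * x * y - 1) * hmm + ((m⁻¹ : Aˣ) : A) * hm
    · linear_combination (-x) * hmm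
    · linear_combination (-hm)
  rw [key] at h
  exact (mul_left_cancel (mul_right_cancel h)).symm

omit hn in
/-- `dd x y m` lies over the Borel subgroup. -/
theorem B_dd (x y : A) (m : Aˣ) (hm : (m : A) = 1 + x * y) : D.B (D.dd x y m) := by
  simp [B, D.π_dd x y m hm]

omit hn in
theorem dd_of_right_unit (x : A) (y m : Aˣ) (hm : (m : A) = 1 + x * y) :
    D.dd x y m = D.w (-y⁻¹) * D.w (m * y⁻¹) := by
  set y' : A := ((y⁻¹ : Aˣ) : A) with hy'
  set m' : A := ((m⁻¹ : Aˣ) : A) with hm'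
  have hyy : (y : A) * y' = 1 := by simp [hy']
  have hmm : (m : A) * m' = 1 := by simp [hm']
  have hzv : ((m * y⁻¹ : Aˣ) : A) = y' + x := by
    rw [Units.val_mul, ← hy']; linear_combination y' * hm + x * hyy
  have hzi : (((m * y⁻¹)⁻¹ : Aˣ) : A) = m' * y := by
    rw [mul_inv, inv_inv, Units.val_mul]
  have key : D.L (y : A) * D.U x
      = D.U (m' * x) * (D.w (-y⁻¹) * D.w (m * y⁻¹)) * D.L (m' * y) := by
    calc D.L (y : A) * D.U x = D.U y' * D.w (-y⁻¹) * D.U ((m * y⁻¹ : Aˣ) : A) := by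
          rw [hzv, D.U_add, D.L_eq y]; simp only [← hy', mul_assoc]
      _ = D.U y' * (D.w (-y⁻¹) * D.L (m' * y)) * D.w (m * y⁻¹) * D.L (m' * y) := by
          rw [D.U_eq (m * y⁻¹), hzi]; simp only [mul_assoc]
      _ = D.U (m' * x) * (D.w (-y⁻¹) * D.w (m * y⁻¹)) * D.L (m' * y) := by
          rw [D.w_L, Units.val_neg, ← hy',
            show m' * x = y' + -((-y') ^ 2 * (m' * y)) by
              linear_combination (-(m' * x) + y' * m') * hyy + (-y' * m') * hm + y' * hmm,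
            D.U_add]
          simp only [mul_assoc]
  rw [dd, key, ← hm']; group

/-- Value of `θ` on `dd x y m` for a unit `y`. -/
theorem θ_dd_of_right_unit (x : A) (y m : Aˣ) (hm : (m : A) = 1 + x * y) :
    D.θ (D.dd x y m) = D.eta (m * y) - D.eta y := by
  rw [D.dd_of_right_unit x y m hm, θ_w_w D hn]
  have h1 : D.eta (-y⁻¹) = D.eta (-y) := by
    rw [← D.eta_mul_sq' hn (-y⁻¹) y, pow_two, neg_mul, inv_mul_cancel_left]
  have h2 : D.eta (m * y⁻¹) = D.eta (m * y) := by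
    rw [← D.eta_mul_sq' hn (m * y⁻¹) y, pow_two]; congr 1; group
  have h3 := D.eta_add_eta_neg hn y
  rw [h1, h2]; linear_combination h3

omit hn in
/-- Additivity in `y`. -/
theorem dd_add (x y₁ y₂ : A) (m₁ m₂ : Aˣ) (hm₂ : (m₂ : A) = 1 + x * y₂)
    (hm₁ : (m₁ : A) = 1 + ((m₂⁻¹ : Aˣ) : A) * x * y₁) :
    D.dd x (y₁ + y₂) (m₁ * m₂) = D.dd (((m₂⁻¹ : Aˣ) : A) * x) y₁ m₁ * D.dd x y₂ m₂ := by
  set x₂ : A := ((m₂⁻¹ : Aˣ) : A) * x with hx₂
  set a₁ : A := ((m₁⁻¹ : Aˣ) : A) with ha₁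
  set a₂ : A := ((m₂⁻¹ : Aˣ) : A) with ha₂
  have h1 : (m₁ : A) * a₁ = 1 := by simp [ha₁]
  have h2 : (m₂ : A) * a₂ = 1 := by simp [ha₂]
  set D₁ := D.dd x₂ y₁ m₁ with hD₁
  set D₂ := D.dd x y₂ m₂ with hD₂
  have hπ : D.π D₂ = dMat m₂⁻¹ := D.π_dd x y₂ m₂ hm₂
  have hc : D.L (a₁ * y₁) * D₂ = D₂ * D.L (a₁ * a₂ ^ 2 * y₁) := by
    rw [D.conjL D₂ m₂⁻¹ _ hπ, inv_inv]
    congr 2
    linear_combination (-(a₁ * y₁) * ((m₂ : A) * a₂ + 1)) * h2
  have key : D.L (y₁ + y₂) * D.U x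
      = D.U (((m₁ * m₂)⁻¹ : Aˣ) * x) * (D₁ * D₂) * D.L (((m₁ * m₂)⁻¹ : Aˣ) * (y₁ + y₂)) := by
    have e1 : (((m₁ * m₂)⁻¹ : Aˣ) : A) = a₁ * a₂ := by rw [mul_inv, Units.val_mul]
    calc D.L (y₁ + y₂) * D.U x
        = D.L y₁ * D.U x₂ * D₂ * D.L (a₂ * y₂) := by
          rw [D.L_add, mul_assoc, D.dd_spec x y₂ m₂]; simp only [← hx₂, ← hD₂, mul_assoc, ← ha₂]
      _ = D.U (a₁ * x₂) * D₁ * (D.L (a₁ * y₁) * D₂) * D.L (a₂ * y₂) := by
          rw [D.dd_spec x₂ y₁ m₁]; simp only [← hD₁, mul_assoc, ← ha₁]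
      _ = D.U (a₁ * x₂) * (D₁ * D₂) * D.L (a₁ * a₂ ^ 2 * y₁ + a₂ * y₂) := by
          rw [hc, D.L_add]; simp only [mul_assoc]
      _ = _ := by
          rw [e1]
          congr 2
          · congr 1; rw [hx₂]; ring
          · linear_combination a₁ * a₂ * y₁ * (h2 - a₂ * hm₂) +
              (-(a₂ * y₂)) * (h1 - a₁ * hm₁)
  rw [dd, key]; group

/-! ### Injectivity when `eta` vanishes -/

variable (heta : ∀ a : Aˣ, D.eta a = 0)
include heta

omit hn in
theorem eq_hh {g : Q} {a : Aˣ} (hg : D.π g = dMat a) (hθ : D.θ g = 0) : g = D.hh a := by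
  have hB : D.B g := by simp [B, hg]
  apply mul_inv_eq_one.1
  apply D.θ_inj
  · rw [map_mul, map_inv, hg, π_hh, mul_inv_cancel]
  · rw [D.θ_mul _ _ hB (D.B_inv (D.B_hh a)), θ_inv _ (D.B_hh a), hθ]
    have := heta a; unfold eta at this; rw [this]; ring

omit hn in
theorem hh_mul (a b : Aˣ) : D.hh a * D.hh b = D.hh (a * b) := by
  apply D.eq_hh heta
  · rw [map_mul, π_hh, π_hh, dMat_mul]
  · rw [D.θ_mul _ _ (D.B_hh _) (D.B_hh _)]
    have h1 := heta a; have h2 := heta b; unfold eta at h1 h2; rw [h1, h2, add_zero]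

omit hn in
theorem w1_sq' : D.w 1 * D.w 1 = D.hh (-1) := by
  rw [w1_sq D, inv_eq_iff_mul_eq_one, hh_mul D heta, neg_mul_neg, one_mul, hh_one]

theorem dd_eq (hloc : ∀ y : A, ¬ IsUnit y → IsNilpotent y) (x y : A) (m : Aˣ)
    (hm : (m : A) = 1 + x * y) : D.dd x y m = D.hh m⁻¹ := by
  refine D.eq_hh heta (D.π_dd x y m hm) ?_
  have hu : ∀ (x' : A) (y' m' : Aˣ), (m' : A) = 1 + x' * y' → D.θ (D.dd x' y' m') = 0 :=
    fun x' y' m' h => by rw [θ_dd_of_right_unit D hn x' y' m' h, heta, heta, sub_zero]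
  by_cases hy : IsUnit y
  · obtain ⟨y, rfl⟩ := hy; exact hu x y m hm
  by_cases hx : IsUnit x
  · obtain ⟨x, rfl⟩ := hx
    set z : Aˣ := m * x⁻¹ with hz
    set x' : A := ((x⁻¹ : Aˣ) : A) with hx'
    set m' : A := ((m⁻¹ : Aˣ) : A) with hm'
    have hxx : (x : A) * x' = 1 := by simp [hx']
    have hmm : (m : A) * m' = 1 := by simp [hm']
    have hzv : (z : A) = y + x' := by
      rw [hz, Units.val_mul, ← hx']; linear_combination x' * hm + y * hxx
    have hzi : ((z⁻¹ : Aˣ) : A) = m' * x := by rw [hz, mul_inv, inv_inv, Units.val_mul]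
    have key : D.L y * D.U (x : A)
        = D.U (m' * x) * (D.w (-z⁻¹) * D.w x) * D.L (m' * y) := by
      calc D.L y * D.U (x : A) = D.L (z : A) * D.w x * D.L x' := by
            rw [hzv, D.L_add, D.U_eq x]; simp only [← hx', mul_assoc]
        _ = D.U (m' * x) * D.w (-z⁻¹) * (D.U ((z⁻¹ : Aˣ) : A) * D.w x) * D.L x' := by
            rw [D.L_eq z, ← hzi]; simp only [mul_assoc]
        _ = _ := by
            have e : ((z⁻¹ : Aˣ) : A) = -((x : A) ^ 2 * (m' * y - x')) := by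
              rw [hzi]; linear_combination (-(x * m')) * hm + (x : A) * hmm - (x : A) * hxx
            rw [e, ← D.w_L, show D.L (m' * y) = D.L (m' * y - x') * D.L x' by
              rw [← D.L_add, sub_add_cancel]]
            simp only [mul_assoc]
    rw [dd, key, show ((m⁻¹ : Aˣ) : A) = m' from rfl]
    have : (D.U (m' * ↑x))⁻¹ * (D.U (m' * ↑x) * (D.w (-z⁻¹) * D.w x) * D.L (m' * y)) *
        (D.L (m' * y))⁻¹ = D.w (-z⁻¹) * D.w x := by group
    rw [this, θ_w_w D hn, heta, heta, heta]; ring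
  · obtain ⟨m₂, hm₂⟩ : IsUnit (1 + x * 1) := by
      rw [mul_one]; exact (hloc x hx).isUnit_one_add
    obtain ⟨u, hu'⟩ : IsUnit (y - 1) := (hloc y hy).isUnit_sub_one
    have hm₁ : ((m * m₂⁻¹ : Aˣ) : A) = 1 + ((m₂⁻¹ : Aˣ) : A) * x * u := by
      rw [Units.val_mul, hu']
      linear_combination ((m₂⁻¹ : Aˣ) : A) * hm - ((m₂⁻¹ : Aˣ) : A) * hm₂ + Units.mul_inv m₂
    have h := D.dd_add x u 1 (m * m₂⁻¹) m₂ hm₂ hm₁
    rw [hu', sub_add_cancel, inv_mul_cancel_right] at h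
    rw [h, D.θ_mul _ _ (D.B_dd _ _ _ (by rw [← hu']; exact hm₁)) (D.B_dd _ _ _ hm₂), ← hu',
      hu _ _ _ hm₁]
    have := hu x 1 m₂ (by simpa using hm₂)
    rw [Units.val_one] at this
    rw [this, add_zero]

omit hn heta in
/-- Normal forms. -/
def InK (g : Q) : Prop :=
  (∃ (x : A) (a : Aˣ) (z : A), g = D.U x * D.w 1 * D.hh a * D.U z) ∨
  (∃ (y : A) (a : Aˣ) (z : A), ¬ IsUnit y ∧ g = D.L y * D.hh a * D.U z)

theorem inK_U_mul (hloc : ∀ y : A, ¬ IsUnit y → IsNilpotent y) (s : A) {g : Q}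
    (hg : D.InK g) : D.InK (D.U s * g) := by
  rcases hg with ⟨x, a, z, rfl⟩ | ⟨y, a, z, hy, rfl⟩
  · exact Or.inl ⟨s + x, a, z, by rw [D.U_add]; simp only [mul_assoc]⟩
  · have hny : IsNilpotent y := hloc y hy
    obtain ⟨m, hm⟩ : IsUnit (1 + s * y) :=
      ((Commute.all s y).isNilpotent_mul_left hny).isUnit_one_add
    set m' : A := ((m⁻¹ : Aˣ) : A)
    set a' : A := ((a⁻¹ : Aˣ) : A)
    refine Or.inr ⟨m' * y, m * a, a' ^ 2 * (m' * s) + z, ?_, ?_⟩
    · exact fun h => hy (isUnit_of_mul_isUnit_right h)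
    · have hD := D.dd_eq hn heta hloc (-s) (-y) m (by rw [neg_mul_neg]; exact hm)
      have h1 : D.U s * D.L y = D.L (m' * y) * D.hh m * D.U (m' * s) := by
        have h2 := D.dd_spec (-s) (-y) m
        rw [hD, U_neg, L_neg] at h2
        simp only [mul_neg, U_neg, L_neg] at h2
        have h3 : (D.hh m⁻¹)⁻¹ = D.hh m :=
          inv_eq_of_mul_eq_one_right (by rw [hh_mul D heta, inv_mul_cancel, hh_one])
        have h4 := congrArg (·⁻¹) h2
        simp only [mul_inv_rev, inv_inv, h3] at h4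
        rw [h4, ← mul_assoc]
      calc D.U s * (D.L y * D.hh a * D.U z)
          = D.L (m' * y) * D.hh m * (D.U (m' * s) * D.hh a) * D.U z := by
            simp only [← mul_assoc]; rw [h1]
        _ = _ := by
            rw [D.U_add, ← hh_mul D heta,
              show D.U (m' * s) * D.hh a = D.hh a * D.U (a' ^ 2 * (m' * s)) by
                rw [D.hh_U]; congr 2
                linear_combination (-(m' * s) * ((a : A) * a' + 1)) * Units.mul_inv a]
            simp only [mul_assoc]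

omit hn in
theorem inK_w1_mul {g : Q} (hg : D.InK g) : D.InK (D.w 1 * g) := by
  rcases hg with ⟨x, a, z, rfl⟩ | ⟨y, a, z, -, rfl⟩
  · have h : D.w 1 * (D.U x * D.w 1 * D.hh a * D.U z) = D.L (-x) * D.hh (-a) * D.U z := by
      rw [← neg_one_mul a, ← hh_mul D heta, ← w1_sq' D heta]
      simp only [← mul_assoc]; rw [w1_U]
    rw [h]
    by_cases hx : IsUnit x
    · obtain ⟨x, rfl⟩ := hx
      set x' : A := ((x⁻¹ : Aˣ) : A)
      set b : Aˣ := x * -a
      set b' : A := ((b⁻¹ : Aˣ) : A)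
      set c : A := (((-a)⁻¹ : Aˣ) : A)
      refine Or.inl ⟨-x', b, c ^ 2 * -x' + z, ?_⟩
      have hw : D.w x⁻¹ = D.w 1 * D.hh x := by
        rw [w_eq]
        have h0 : D.w 1 * D.hh x * (D.w 1)⁻¹ = D.hh x⁻¹ := by
          apply D.eq_hh heta
          · rw [w1_hh_conj, map_mul, map_inv, π_hh, π_hh, inv_mul_eq_iff_eq_mul, ← dMat_mul]
            congr 1; rw [pow_two, mul_inv_cancel_right]
          · rw [θ_w1_hh_conj, heta, heta, sub_zero]
        rw [← h0, inv_mul_cancel_right]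
      calc D.L (-(x : A)) * D.hh (-a) * D.U z
          = D.U (-x') * D.w 1 * (D.hh x * (D.U (-x') * D.hh (-a))) * D.U z := by
            rw [← Units.val_neg, D.L_eq (-x), inv_neg, neg_neg, hw, Units.val_neg]
            simp only [mul_assoc]; rfl
        _ = _ := by
            rw [show D.U (-x') * D.hh (-a) = D.hh (-a) * D.U (c ^ 2 * -x') by
                rw [D.hh_U]; congr 2
                linear_combination (x' * (((-a : Aˣ) : A) * c + 1)) * Units.mul_inv (-a),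
              D.U_add, show D.hh b = D.hh x * D.hh (-a) by rw [hh_mul D heta]]
            simp only [mul_assoc]
    · exact Or.inr ⟨-x, -a, z, fun h => hx (by simpa using h.neg), rfl⟩
  · exact Or.inl ⟨-y, a, z, by simp only [← mul_assoc]; rw [w1_L]⟩

theorem inK_of_generate [Nontrivial A] (hloc : ∀ y : A, ¬ IsUnit y → IsNilpotent y) (g : Q) :
    D.InK g := by
  let H : Subgroup Q :=
    { carrier := {g | (∀ k, D.InK k → D.InK (g * k)) ∧ ∀ k, D.InK k → D.InK (g⁻¹ * k)}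
      one_mem' := by simp
      mul_mem' := fun {a b} ha hb =>
        ⟨fun k hk => by rw [mul_assoc]; exact ha.1 _ (hb.1 _ hk),
          fun k hk => by rw [mul_inv_rev, mul_assoc]; exact hb.2 _ (ha.2 _ hk)⟩
      inv_mem' := fun {a} ha => ⟨ha.2, by simpa using ha.1⟩ }
  have hU : ∀ s, D.U s ∈ H := fun s =>
    ⟨fun _ => D.inK_U_mul hn heta hloc s,
      fun _ h => by rw [← U_neg]; exact D.inK_U_mul hn heta hloc _ h⟩
  have hw4 : (D.w 1)⁻¹ = D.w 1 * D.w 1 * D.w 1 := by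
    rw [inv_eq_iff_mul_eq_one]
    calc D.w 1 * (D.w 1 * D.w 1 * D.w 1) = (D.w 1 * D.w 1) * (D.w 1 * D.w 1) := by
          simp only [mul_assoc]
      _ = 1 := by rw [w1_sq' D heta, hh_mul D heta, neg_mul_neg, one_mul, hh_one]
  have hw : D.w 1 ∈ H :=
    ⟨fun _ => D.inK_w1_mul heta, fun k hk => by
      rw [hw4, mul_assoc, mul_assoc]
      exact D.inK_w1_mul heta (D.inK_w1_mul heta (D.inK_w1_mul heta hk))⟩
  have hL : ∀ s, D.L s ∈ H := fun s => by
    have h : D.L s = D.w 1 * D.U (-s) * (D.w 1)⁻¹ := by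
      rw [w1_U, neg_neg, mul_inv_cancel_right]
    rw [h]; exact H.mul_mem (H.mul_mem hw (hU _)) (H.inv_mem hw)
  have htop : H = ⊤ := by
    rw [eq_top_iff, ← D.generate, Subgroup.closure_le]
    rintro _ (⟨s, rfl⟩ | ⟨s, rfl⟩)
    · exact hU s
    · exact hL s
  have hg : g ∈ H := htop ▸ Subgroup.mem_top g
  have h1 : D.InK 1 :=
    Or.inr ⟨0, 1, 0, not_isUnit_zero, by rw [L_zero, hh_one, U_zero]; simp⟩
  simpa using hg.1 1 h1

/-- With vanishing obstruction over a local ring with nilpotent maximal ideal, `π` is injective. -/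
theorem eq_one_of_pi_eq_one [Nontrivial A] (hloc : ∀ y : A, ¬ IsUnit y → IsNilpotent y)
    {g : Q} (hg : D.π g = 1) : g = 1 := by
  rcases D.inK_of_generate hn heta hloc g with ⟨x, a, z, rfl⟩ | ⟨y, a, z, -, rfl⟩
  · have h := congrArg (fun M : SL(2, A) => M 1 0) hg
    simp [D.π_U, π_w, π_hh, Matrix.mul_apply, Fin.sum_univ_two] at h
  · have h00 := congrArg (fun M : SL(2, A) => M 0 0) hg
    have h01 := congrArg (fun M : SL(2, A) => M 0 1) hg
    have h10 := congrArg (fun M : SL(2, A) => M 1 0) hg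
    simp [D.π_U, D.π_L, π_hh, Matrix.mul_apply, Fin.sum_univ_two] at h00 h01 h10
    have ha : a = 1 := Units.ext (by simpa using h00)
    subst ha
    rw [h01, h10, L_zero, U_zero, hh_one]
    simp

end LocalData

end Fermat.Agent.IharaGroup

end
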