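import Fermat.Agent.IharaGroup.Local
import Mathlib.Data.ZMod.Units
import Mathlib.FieldTheory.Finite.Basic
import Mathlib.RingTheory.ZMod.UnitsCyclic

/-!
# The local statement for `A = ℤ/lⁿ`

The obstruction `eta` of a normalised `LocalData` vanishes over `ℤ/lⁿ` (`l` any prime, coefficient
field of characteristic different from `2`), hence `π` is injective.
-/

set_option autoImplicit false

noncomputable section

open scoped MatrixGroups Classical

namespace Fermat.Agent.IharaGroup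

variable {k Q : Type*} [Field k] [Group Q]

theorem isNilpotent_of_not_isUnit_zmod {l n : ℕ} (hl : l.Prime) (y : ZMod (l ^ n))
    (hy : ¬ IsUnit y) : IsNilpotent y := by
  have : NeZero (l ^ n) := ⟨pow_ne_zero _ hl.ne_zero⟩
  rw [← ZMod.natCast_zmod_val y, ZMod.isUnit_iff_coprime] at hy
  have hdvd : l ∣ y.val := by
    by_contra h
    exact hy (Nat.Coprime.pow_right _ ((hl.coprime_iff_not_dvd.2 h).symm))
  refine ⟨n, ?_⟩
  rw [← ZMod.natCast_zmod_val y, ← Nat.cast_pow, ZMod.natCast_eq_zero_iff]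
  exact pow_dvd_pow_of_dvd hdvd n

/-- An integer congruent to `1` modulo `8` is a square modulo every power of `2`. -/
theorem exists_sq_modEq_two_pow {a : ℤ} (ha : (8 : ℤ) ∣ a - 1) (n : ℕ) :
    ∃ b : ℤ, Odd b ∧ (2 : ℤ) ^ n ∣ a - b ^ 2 := by
  induction n with
  | zero => exact ⟨1, odd_one, by simp⟩
  | succ n ih =>
    by_cases hn : n < 3
    · refine ⟨1, odd_one, ?_⟩
      rw [one_pow]
      refine dvd_trans ?_ ha
      exact (pow_dvd_pow (2 : ℤ) (show n + 1 ≤ 3 by omega)).trans (by norm_num)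
    · obtain ⟨b, hb, hd⟩ := ih
      obtain ⟨t, ht⟩ := hd
      rcases Int.even_or_odd t with ⟨s, rfl⟩ | ⟨s, rfl⟩
      · exact ⟨b, hb, ⟨s, by rw [ht]; ring⟩⟩
      · obtain ⟨j, rfl⟩ : ∃ j, n = j + 3 := ⟨n - 3, by omega⟩
        obtain ⟨c, rfl⟩ := hb
        refine ⟨2 * c + 1 + 2 ^ (j + 2), ?_, ⟨s - c - 2 ^ j, ?_⟩⟩
        · exact ⟨c + 2 ^ (j + 1), by ring⟩
        · linear_combination ht

/-- There are consecutive non-squares in a suitable sense modulo an odd prime. -/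
theorem exists_nonsquare_pair (l : ℕ) [Fact l.Prime] (hl : l ≠ 2) :
    ∃ u : ZMod l, ¬ IsSquare u ∧ ¬ IsSquare (1 - u) := by
  obtain ⟨a, ha⟩ := FiniteField.exists_nonsquare (F := ZMod l) (by rwa [ZMod.ringChar_zmod_n])
  have hex : ∃ k : ℕ, ¬ IsSquare (k : ZMod l) := ⟨a.val, by simpa using ha⟩
  set k := Nat.find hex with hk
  have hks : ¬ IsSquare (k : ZMod l) := Nat.find_spec hex
  have hk0 : k ≠ 0 := fun h => hks (by rw [h, Nat.cast_zero]; exact IsSquare.zero)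
  obtain ⟨j, hj⟩ : ∃ j, k = j + 1 := ⟨k - 1, by omega⟩
  have hjs : IsSquare (j : ZMod l) := by
    by_contra h
    have := Nat.find_min' hex h
    omega
  have hj0 : (j : ZMod l) ≠ 0 := fun h => hks (by rw [hj, Nat.cast_succ, h, zero_add]; exact IsSquare.one)
  have hk0' : (k : ZMod l) ≠ 0 := fun h => hks (by rw [h]; exact IsSquare.zero)
  by_cases hneg : IsSquare (-1 : ZMod l)
  · refine ⟨(k : ZMod l)⁻¹, fun h => hks (by simpa using h.inv), fun h => hks ?_⟩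
    have he : (k : ZMod l) = (j : ZMod l) * (1 - (k : ZMod l)⁻¹)⁻¹ := by
      have hkj : (k : ZMod l) = (j : ZMod l) + 1 := by rw [hj, Nat.cast_succ]
      have h1 : 1 - (k : ZMod l)⁻¹ = (j : ZMod l) * (k : ZMod l)⁻¹ := by
        field_simp; rw [hkj]; ring
      rw [h1, mul_inv, inv_inv, ← mul_assoc, mul_inv_cancel₀ hj0, one_mul]
    rw [he]; exact hjs.mul h.inv
  · refine ⟨(k : ZMod l), hks, fun h => hneg ?_⟩
    rw [hj, Nat.cast_succ, show (1 : ZMod l) - ((j : ZMod l) + 1) = -1 * j by ring] at h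
    have := h.mul hjs.inv
    rwa [mul_assoc, mul_inv_cancel₀ hj0, mul_one] at this

namespace LocalData

theorem eta_eq_zero_odd {l n : ℕ} [Fact l.Prime] (hl : l ≠ 2) (hn : n ≠ 0) (h2 : (2 : k) ≠ 0)
    (D : LocalData (ZMod (l ^ n)) k Q) (hsq : ∀ b, D.eta (b ^ 2) = 0) (a : (ZMod (l ^ n))ˣ) :
    D.eta a = 0 := by
  have hlp : l.Prime := Fact.out
  have : NeZero (l ^ n) := ⟨pow_ne_zero _ hlp.ne_zero⟩
  have := ZMod.isCyclic_units_of_prime_pow l hlp hl n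
  obtain ⟨g, hg⟩ := IsCyclic.exists_generator (α := (ZMod (l ^ n))ˣ)
  have hpar : ∀ b : (ZMod (l ^ n))ˣ, ¬ IsSquare b → ∃ i : ℤ, b = g * (g ^ i) ^ 2 := by
    intro b hb
    obtain ⟨i, rfl⟩ := Subgroup.mem_zpowers_iff.1 (hg b)
    rcases Int.even_or_odd i with ⟨j, rfl⟩ | ⟨j, rfl⟩
    · exact absurd ⟨g ^ j, zpow_add g j j⟩ hb
    · exact ⟨j, by rw [zpow_add, zpow_one, mul_comm g, pow_two, two_mul, zpow_add]⟩
  have hclass : ∀ b : (ZMod (l ^ n))ˣ, ¬ IsSquare b → D.eta b = D.eta g := fun b hb => by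
    obtain ⟨i, rfl⟩ := hpar b hb
    exact D.eta_mul_sq' hsq g (g ^ i)
  have hsquare : ∀ b : (ZMod (l ^ n))ˣ, IsSquare b → D.eta b = 0 := fun b hb => by
    obtain ⟨c, rfl⟩ := hb
    rw [← pow_two]; exact hsq c
  obtain ⟨u₀, hu₀, hv₀⟩ := exists_nonsquare_pair l hl
  set r : ZMod (l ^ n) →+* ZMod l := ZMod.castHom (dvd_pow_self l hn) (ZMod l)
  have hlift : ∀ x : ZMod (l ^ n), ¬ IsSquare (r x) → IsUnit x ∧ ¬ IsSquare x := by
    intro x hx
    refine ⟨?_, fun h => hx (h.map r)⟩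
    by_contra h
    apply hx
    rw [((isNilpotent_of_not_isUnit_zmod hlp x h).map r).eq_zero]
    exact IsSquare.zero
  have hru : r (u₀.val : ZMod (l ^ n)) = u₀ := by rw [map_natCast, ZMod.natCast_zmod_val]
  obtain ⟨⟨u, hu⟩, hus⟩ := hlift (u₀.val : ZMod (l ^ n)) (by rw [hru]; exact hu₀)
  obtain ⟨⟨v, hv⟩, hvs⟩ :=
    hlift (1 - (u₀.val : ZMod (l ^ n))) (by rw [map_sub, map_one, hru]; exact hv₀)
  have hus' : ¬ IsSquare u := fun h => hus (hu ▸ h.map (Units.coeHom _))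
  have hvs' : ¬ IsSquare v := fun h => hvs (hv ▸ h.map (Units.coeHom _))
  have huv : IsSquare (u * v) := by
    obtain ⟨i, rfl⟩ := hpar u hus'
    obtain ⟨j, rfl⟩ := hpar v hvs'
    exact ⟨g * g ^ i * g ^ j, by simp only [pow_two]; ac_rfl⟩
  have h := D.eta_of_add_eq_one hsq u v (by rw [hu, hv]; ring)
  rw [hsquare _ huv, hclass u hus', hclass v hvs'] at h
  have hg0 : D.eta g = 0 := by
    rcases mul_eq_zero.1 (show (2 : k) * D.eta g = 0 by linear_combination -h) with h' | h'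
    · exact absurd h' h2
    · exact h'
  by_cases ha : IsSquare a
  · exact hsquare a ha
  · rw [hclass a ha, hg0]

theorem eta_eq_zero_two {n : ℕ} (hn : n ≠ 0) (h2 : (2 : k) ≠ 0)
    (D : LocalData (ZMod (2 ^ n)) k Q) (hsq : ∀ b, D.eta (b ^ 2) = 0) (a : (ZMod (2 ^ n))ˣ) :
    D.eta a = 0 := by
  have : NeZero (2 ^ n) := ⟨pow_ne_zero _ two_ne_zero⟩
  have hodd : ∀ z : ℤ, Odd z → IsUnit (z : ZMod (2 ^ n)) := fun z hz => by
    rw [ZMod.coe_int_isUnit_iff_isCoprime]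
    push_cast
    exact (Int.prime_two.coprime_iff_not_dvd.2 (by rw [← even_iff_two_dvd]; exact Int.not_even_iff_odd.2 hz)).pow_left
  let f : ℤ → k := fun z =>
    if h : IsUnit (z : ZMod (2 ^ n)) then D.eta h.unit else 0
  have hf : ∀ (z : ℤ) (u : (ZMod (2 ^ n))ˣ), (u : ZMod (2 ^ n)) = z → D.eta u = f z := by
    intro z u h
    have hu : IsUnit (z : ZMod (2 ^ n)) := h ▸ u.isUnit
    simp only [f, dif_pos hu]
    congr 1
    exact Units.ext (by simp [h])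
  -- a unit `u` with `u * den = num` has the class of `num * den`
  have hclass : ∀ (u : (ZMod (2 ^ n))ˣ) (num den z : ℤ), Odd den → Odd z →
      (u : ZMod (2 ^ n)) * den = num → (8 : ℤ) ∣ num * den * z - 1 → D.eta u = f z := by
    intro u num den z hden hz hu h8
    obtain ⟨b, hb, hdvd⟩ := exists_sq_modEq_two_pow h8 n
    obtain ⟨ub, hub⟩ := hodd b hb
    obtain ⟨uz, huz⟩ := hodd z hz
    obtain ⟨ud, hud⟩ := hodd den hden
    have hb2 : ((num * den * z : ℤ) : ZMod (2 ^ n)) = ((b ^ 2 : ℤ) : ZMod (2 ^ n)) := by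
      rw [ZMod.intCast_eq_intCast_iff_dvd_sub]
      push_cast
      exact dvd_sub_comm.1 hdvd
    have he : u = uz * (ub * uz⁻¹ * ud⁻¹) ^ 2 := by
      have : u * uz * ud ^ 2 = ub ^ 2 := Units.ext (by
        push_cast at hb2 ⊢
        rw [hub, huz, hud, ← hb2, ← hu]; ring)
      rw [mul_pow, mul_pow, ← this]
      refine Units.ext ?_
      push_cast
      set a : ZMod (2 ^ n) := (u : ZMod (2 ^ n))
      set z : ZMod (2 ^ n) := (uz : ZMod (2 ^ n)) * ((uz⁻¹ : (ZMod (2 ^ n))ˣ) : ZMod (2 ^ n))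
      set d : ZMod (2 ^ n) := (ud : ZMod (2 ^ n)) * ((ud⁻¹ : (ZMod (2 ^ n))ˣ) : ZMod (2 ^ n))
      linear_combination (-a * z * d ^ 2 - a * d ^ 2) * Units.mul_inv uz -
        a * (d + 1) * Units.mul_inv ud
    rw [he, D.eta_mul_sq' hsq, hf z uz huz]
  have f1 : f 1 = 0 := by rw [← hf 1 1 (by simp)]; simpa using hsq 1
  -- the value of `θ` on `dd 2 2`, computed from `2 = y₁ + y₂`
  obtain ⟨m, hm⟩ := hodd 5 (by decide)
  have hval : ∀ y₁ y₂ c₁ d₁ c₂ d₂ : ℤ, y₁ + y₂ = 2 → Odd y₁ → Odd y₂ →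
      Odd c₁ → Odd d₁ → Odd c₂ → Odd d₂ →
      (8 : ℤ) ∣ 5 * y₁ * (1 + 2 * y₂) * c₁ - 1 → (8 : ℤ) ∣ y₁ * d₁ - 1 →
      (8 : ℤ) ∣ (1 + 2 * y₂) * y₂ * c₂ - 1 → (8 : ℤ) ∣ y₂ * d₂ - 1 →
      D.θ (D.dd 2 2 m) = f c₁ - f d₁ + (f c₂ - f d₂) := by
    intro y₁ y₂ c₁ d₁ c₂ d₂ hy hy₁ hy₂ hc₁ hd₁ hc₂ hd₂ e1 e2 e3 e4
    obtain ⟨v₁, hv₁⟩ := hodd y₁ hy₁
    obtain ⟨v₂, hv₂⟩ := hodd y₂ hy₂
    have hm2odd : Odd (1 + 2 * y₂) := ⟨y₂, by ring⟩
    obtain ⟨m₂, hm₂⟩ := hodd _ hm2odd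
    push_cast at hm₂
    rw [← hv₂] at hm₂
    have hm5 : (m : ZMod (2 ^ n)) = 5 := by simpa using hm
    have hysum : (v₁ : ZMod (2 ^ n)) + v₂ = 2 := by
      rw [hv₁, hv₂, ← Int.cast_add, hy]; simp
    have hm₁ : ((m * m₂⁻¹ : (ZMod (2 ^ n))ˣ) : ZMod (2 ^ n))
        = 1 + ((m₂⁻¹ : (ZMod (2 ^ n))ˣ) : ZMod (2 ^ n)) * 2 * v₁ := by
      rw [Units.val_mul]
      linear_combination ((m₂⁻¹ : (ZMod (2 ^ n))ˣ) : ZMod (2 ^ n)) *
        (hm5 - hm₂ - 2 * hysum) + Units.mul_inv m₂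
    have h := D.dd_add 2 (v₁ : ZMod (2 ^ n)) v₂ (m * m₂⁻¹) m₂ hm₂ hm₁
    rw [hysum, inv_mul_cancel_right] at h
    rw [h, D.θ_mul _ _ (D.B_dd _ _ _ hm₁) (D.B_dd _ _ _ hm₂),
      D.θ_dd_of_right_unit hsq _ _ _ hm₁, D.θ_dd_of_right_unit hsq _ _ _ hm₂,
      hclass (m * m₂⁻¹ * v₁) (5 * y₁) (1 + 2 * y₂) c₁ hm2odd hc₁ (by
        push_cast
        rw [← hv₁, ← hv₂, hm5]
        linear_combination (-(5 * (v₁ : ZMod (2 ^ n)) * ((m₂⁻¹ : (ZMod (2 ^ n))ˣ) : ZMod (2 ^ n)))) * hm₂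
          + 5 * (v₁ : ZMod (2 ^ n)) * Units.mul_inv m₂) e1,
      hclass v₁ y₁ 1 d₁ odd_one hd₁ (by simp [hv₁]) (by simpa using e2),
      hclass (m₂ * v₂) ((1 + 2 * y₂) * y₂) 1 c₂ odd_one hc₂ (by
        push_cast; rw [← hv₂, hm₂]; ring) (by simpa using e3),
      hclass v₂ y₂ 1 d₂ odd_one hd₂ (by simp [hv₂]) (by simpa using e4)]
  have h11 := hval 1 1 7 1 3 1 (by norm_num) (by decide) (by decide) (by decide) (by decide)
    (by decide) (by decide) (by norm_num) (by norm_num) (by norm_num) (by norm_num)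
  have h35 := hval (-3) 5 3 5 7 5 (by norm_num) (by decide) (by decide) (by decide) (by decide)
    (by decide) (by decide) (by norm_num) (by norm_num) (by norm_num) (by norm_num)
  have h13 := hval (-1) 3 5 7 5 3 (by norm_num) (by decide) (by decide) (by decide) (by decide)
    (by decide) (by decide) (by norm_num) (by norm_num) (by norm_num) (by norm_num)
  rw [f1] at h11
  obtain ⟨u3, hu3⟩ := hodd 3 (by decide)
  have hneg : f 3 + f 5 = f 7 := by
    have h := D.eta_add_eta_neg hsq u3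
    rwa [hf 3 u3 hu3, hclass (-u3) (-3) 1 5 odd_one (by decide) (by simp [hu3]) (by norm_num),
      hclass (-1) (-1) 1 7 odd_one (by decide) (by simp) (by norm_num)] at h
  have f5 : f 5 = 0 := by
    rcases mul_eq_zero.1 (show (2 : k) * f 5 = 0 by linear_combination h35 - h11) with h | h
    · exact absurd h h2
    · exact h
  have f7 : f 7 = 0 := by
    rcases mul_eq_zero.1 (show (2 : k) * (2 * f 7) = 0 by
      linear_combination h13 - h11 - 2 * hneg + 4 * f5) with h | h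
    · exact absurd h h2
    · exact (mul_eq_zero.1 h).resolve_left h2
  have f3 : f 3 = 0 := by linear_combination hneg - f5 + f7
  -- every unit has the class of `1`, `3`, `5` or `7`
  set z : ℤ := ((a : ZMod (2 ^ n)).val : ℤ) with hz
  have hza : (a : ZMod (2 ^ n)) = (z : ZMod (2 ^ n)) := by simp [hz]
  have hzodd : Odd z := by
    rw [hz, Int.odd_coe_nat]
    have hc := ZMod.val_coe_unit_coprime a
    exact Nat.coprime_two_right.1 (Nat.Coprime.coprime_dvd_right (dvd_pow_self 2 hn) hc)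
  have hz2 : z % 2 = 1 := Int.odd_iff.1 hzodd
  rcases (by omega : z % 8 = 1 ∨ z % 8 = 3 ∨ z % 8 = 5 ∨ z % 8 = 7) with h8 | h8 | h8 | h8
  · rw [hclass a z 1 1 odd_one (by decide) (by simp [hza]) (by omega), f1]
  · rw [hclass a z 1 3 odd_one (by decide) (by simp [hza]) (by omega), f3]
  · rw [hclass a z 1 5 odd_one (by decide) (by simp [hza]) (by omega), f5]
  · rw [hclass a z 1 7 odd_one (by decide) (by simp [hza]) (by omega), f7]

/-- Over `ℤ/lⁿ` the extension is trivial. -/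
theorem injective_zmod {l n : ℕ} [Fact l.Prime] (hn : n ≠ 0) (h2 : (2 : k) ≠ 0)
    (D : LocalData (ZMod (l ^ n)) k Q) {g : Q} (hg : D.π g = 1) : g = 1 := by
  have hlp : l.Prime := Fact.out
  have : Fact (1 < l ^ n) := ⟨Nat.one_lt_pow hn hlp.one_lt⟩
  have hsq := D.eta_normalize_sq h2
  refine D.normalize.eq_one_of_pi_eq_one hsq ?_ (isNilpotent_of_not_isUnit_zmod hlp) hg
  intro a
  rcases eq_or_ne l 2 with rfl | hl
  · exact eta_eq_zero_two hn h2 _ hsq a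
  · exact eta_eq_zero_odd hl hn h2 _ hsq a

end LocalData

end Fermat.Agent.IharaGroup

end
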