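import Fermat.Agent.IharaGroup.Congruence

/-!
# Ihara's lemma as a group theorem

Let `q` be a prime not dividing `N > 0` and `p` an odd prime.  An additive map
`Γ₀(N)[1/q] → ℤ/p` killing every element of trace `2` vanishes on `Γ₁(N)`
(`ihara_of_parabolic`; `ihara` is the variant with "has a rational eigenvector").
-/

set_option autoImplicit false

noncomputable section

open scoped MatrixGroups

open Matrix

namespace Fermat.Agent.IharaGroup

namespace Setup

variable {k : Type*} [Field k] (S : Setup k)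

theorem pr_commute_of_ρ_eq_one {z : SL(2, qInts S.q)} (hz : S.ρ z = 1)
    (g : SL(2, qInts S.q)) : S.pr g * S.pr z = S.pr z * S.pr g := by
  have htop := closure_elementary_eq_top S.hq.ne_zero
  have hz00 : S.rd (z 0 0) = 1 := by rw [← S.ρ_entry, hz]; rfl
  have hz11 : S.rd (z 1 1) = 1 := by rw [← S.ρ_entry, hz]; rfl
  suffices h : Subgroup.closure (Set.range (uMat : qInts S.q → _) ∪ Set.range lMat) ≤
      (Subgroup.centralizer {S.pr z}).comap S.pr by
    have hg : g ∈ (Subgroup.centralizer {S.pr z}).comap S.pr := h (htop ▸ Subgroup.mem_top g)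
    exact Subgroup.mem_centralizer_singleton_iff.1 hg
  rw [Subgroup.closure_le]
  rintro _ (⟨x, rfl⟩ | ⟨x, rfl⟩) <;>
    rw [SetLike.mem_coe, Subgroup.mem_comap, Subgroup.mem_centralizer_singleton_iff]
  · rw [S.conj_rel z (S.ρ_ten_of_eq_one hz) x]
    rw [S.pr_uMat_congr (x := z 0 0 ^ 2 * x) (y := x) (by simp [hz00])]
  · have h01 : S.ρ z 0 1 = 0 := by rw [hz]; rfl
    rw [S.conj_rel' z h01 x]
    congr 1
    rw [← mul_inv_eq_one, ← map_inv, ← map_mul, S.pr_eq_one]
    have : lMat x * (lMat (z 1 1 ^ 2 * x))⁻¹ = lMat (x - z 1 1 ^ 2 * x) := by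
      rw [mul_inv_eq_iff_eq_mul, ← lMat_add]; congr 1; ring
    rw [this]
    exact S.lMat_mem_kh (by simp [hz11])

theorem hfun_eq_on_congruence {z : SL(2, qInts S.q)} (hz : S.ρ z = 1) (h0 : S.hfun z = 0) :
    S.pr z = 1 := by
  rw [S.pr_eq_one]
  refine ⟨hz, fun s => ?_⟩
  have h := S.pr_commute_of_ρ_eq_one hz s
  have hk : s * z * s⁻¹ * z⁻¹ ∈ S.kh := by
    rw [← S.pr_eq_one, map_mul, map_mul, map_mul, h, map_inv, map_inv]; group
  have h1 : S.hfun (s * z * s⁻¹) = S.hfun (s * z * s⁻¹ * z⁻¹) + S.hfun z := by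
    rw [← S.hfun_mul' (S.ρ_ten_of_eq_one hk.1) (S.ρ_ten_of_eq_one hz)]
    congr 1; group
  rw [h1, h0, add_zero]
  have := hk.2 1
  simpa using this

theorem hfun_congr {g g' : SL(2, qInts S.q)} (hg : S.ρ g 1 0 = 0) (h : S.pr g = S.pr g') :
    S.hfun g = S.hfun g' := by
  have hk : g⁻¹ * g' ∈ S.kh := by rw [← S.pr_eq_one, map_mul, map_inv, h, inv_mul_cancel]
  have := S.hfun_mul' hg (S.ρ_ten_of_eq_one hk.1)
  rw [mul_inv_cancel_left] at this
  rw [this]
  have h2 := hk.2 1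
  simp only [one_mul, inv_one, mul_one] at h2
  rw [h2, add_zero]

/-- Reduction on the quotient. -/
def ρbar : S.Quot →* SL(2, ZMod S.N) :=
  QuotientGroup.lift S.kh S.ρ fun _ hg => hg.1

theorem ρbar_pr (g : SL(2, qInts S.q)) : S.ρbar (S.pr g) = S.ρ g := rfl

theorem rd_natCast_val (x : ZMod S.N) : S.rd ((x.val : ℕ) : qInts S.q) = x := by
  have := S.hN
  rw [map_natCast, ZMod.natCast_zmod_val]

theorem pr_lMat_congr {x y : qInts S.q} (h : S.rd x = S.rd y) :
    S.pr (lMat x) = S.pr (lMat y) := by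
  rw [← mul_inv_eq_one, ← map_inv, ← map_mul, S.pr_eq_one]
  have : lMat x * (lMat y)⁻¹ = lMat (x - y) := by
    rw [mul_inv_eq_iff_eq_mul, ← lMat_add, sub_add_cancel]
  rw [this]
  exact S.lMat_mem_kh (by rw [map_sub, h, sub_self])

theorem pr_out (g : S.Quot) : S.pr g.out = g := QuotientGroup.out_eq' g

/-- The lift of `(0 1; -1 0)` in the quotient. -/
theorem pr_wMat :
    S.pr (uMat (((1 : ZMod S.N).val : ℕ) : qInts S.q)) *
        S.pr (lMat (((-1 : ZMod S.N).val : ℕ) : qInts S.q)) *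
        S.pr (uMat (((1 : ZMod S.N).val : ℕ) : qInts S.q)) = S.pr wMat := by
  rw [S.pr_uMat_congr (y := 1) (by rw [rd_natCast_val, map_one]),
    S.pr_lMat_congr (y := -1) (by rw [rd_natCast_val, map_neg, map_one]), wMat, map_mul, map_mul]

/-- The global data over `ℤ/N`. -/
def globalData : GlobalData (ZMod S.N) k S.Quot where
  U x := S.pr (uMat ((x.val : ℕ) : qInts S.q))
  L x := S.pr (lMat ((x.val : ℕ) : qInts S.q))
  π := S.ρbar
  θ g := S.hfun g.out
  U_add x y := by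
    rw [← map_mul, ← uMat_add]
    exact S.pr_uMat_congr (by simp only [map_add, rd_natCast_val])
  L_add x y := by
    rw [← map_mul, ← lMat_add]
    exact S.pr_lMat_congr (by simp only [map_add, rd_natCast_val])
  π_U x := by rw [ρbar_pr, ρ, map_uMat, rd_natCast_val]
  π_L x := by rw [ρbar_pr, ρ, map_lMat, rd_natCast_val]
  θ_mul g g' hg hg' := by
    rw [← S.pr_out g, ρbar_pr] at hg
    rw [← S.pr_out g', ρbar_pr] at hg'
    rw [← S.hfun_mul' hg hg']
    refine (S.hfun_congr (by rw [map_mul]; exact mul_apply_one_zero hg hg') ?_).symm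
    rw [map_mul, pr_out, pr_out, pr_out]
  θ_U x := by
    rw [← S.hfun_congr (g := uMat ((x.val : ℕ) : qInts S.q))]
    · exact S.hfun_parabolic _ (by simp) (by simp; norm_num)
    · rw [ρ_entry]; simp
    · rw [pr_out]
  θ_inj g hg h0 := by
    rw [← S.pr_out g, ρbar_pr] at hg
    rw [← S.pr_out g]
    exact S.hfun_eq_on_congruence hg h0
  conjU g hg x := by
    rw [← S.pr_out g, ρbar_pr] at hg ⊢
    rw [S.conj_rel _ hg]
    congr 1
    exact S.pr_uMat_congr (by rw [map_mul, map_pow, rd_natCast_val, rd_natCast_val, ← ρ_entry])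
  conjL g hg x := by
    rw [← S.pr_out g, ρbar_pr] at hg ⊢
    rw [S.conj_rel' _ hg]
    congr 1
    exact S.pr_lMat_congr (by rw [map_mul, map_pow, rd_natCast_val, rd_natCast_val, ← ρ_entry])
  w1U x := by
    rw [pr_wMat, S.pr_lMat_congr (x := (((-x).val : ℕ) : qInts S.q))
        (y := -((x.val : ℕ) : qInts S.q)) (by rw [map_neg, rd_natCast_val, rd_natCast_val])]
    simp only [← map_mul]
    exact congrArg S.pr (wMat_uMat _)
  w1L x := by
    rw [pr_wMat, S.pr_uMat_congr (x := (((-x).val : ℕ) : qInts S.q))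
        (y := -((x.val : ℕ) : qInts S.q)) (by rw [map_neg, rd_natCast_val, rd_natCast_val])]
    simp only [← map_mul]
    exact congrArg S.pr (wMat_lMat _)
  central z hz g := by
    rw [← S.pr_out z, ρbar_pr] at hz
    rw [← S.pr_out g, ← S.pr_out z]
    exact S.pr_commute_of_ρ_eq_one hz _
  generate := by
    rw [eq_top_iff]
    intro g _
    rw [← S.pr_out g]
    have h : Subgroup.closure (Set.range (uMat : qInts S.q → _) ∪ Set.range lMat) ≤
        (Subgroup.closure (Set.range (fun x : ZMod S.N => S.pr (uMat ((x.val : ℕ) : qInts S.q))) ∪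
          Set.range fun x : ZMod S.N => S.pr (lMat ((x.val : ℕ) : qInts S.q)))).comap S.pr := by
      rw [Subgroup.closure_le]
      rintro _ (⟨x, rfl⟩ | ⟨x, rfl⟩)
      · exact Subgroup.subset_closure (Or.inl ⟨S.rd x, S.pr_uMat_congr (S.rd_natCast_val _)⟩)
      · exact Subgroup.subset_closure (Or.inr ⟨S.rd x, S.pr_lMat_congr (S.rd_natCast_val _)⟩)
    exact h ((closure_elementary_eq_top S.hq.ne_zero) ▸ Subgroup.mem_top _)

/-- `hfun` vanishes on the principal congruence subgroup. -/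
theorem hfun_eq_zero_of_ρ_eq_one (h2 : (2 : k) ≠ 0) {g : SL(2, qInts S.q)} (hg : S.ρ g = 1) :
    S.hfun g = 0 := by
  have := S.hN
  have h : S.pr g = 1 := GlobalData.injective_zmod S.globalData h2 (by exact hg)
  rw [S.pr_eq_one] at h
  simpa using h.2 1

/-- `hfun` vanishes on the elements congruent to an upper unipotent. -/
theorem hfun_eq_zero (h2 : (2 : k) ≠ 0) {g : SL(2, qInts S.q)} (h10 : S.rd (g 1 0) = 0)
    (h00 : S.rd (g 0 0) = 1) : S.hfun g = 0 := by
  have hU : ∀ y : qInts S.q, S.ρ (uMat y) 1 0 = 0 := fun y => by rw [ρ_entry]; simp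
  have h1 : S.ρ (g * uMat (-(g 0 1))) = 1 := by
    have hdet : S.rd (g 0 0) * S.rd (g 1 1) - S.rd (g 0 1) * S.rd (g 1 0) = 1 := by
      rw [← map_mul, ← map_mul, ← map_sub, ← Matrix.det_fin_two, g.prop, map_one]
    rw [h00, h10, one_mul, mul_zero, sub_zero] at hdet
    ext i j
    rw [ρ_entry]
    fin_cases i <;> fin_cases j <;>
      simp [Matrix.mul_apply, Fin.sum_univ_two, h00, h10, hdet]
  have hm := S.hfun_mul' (S.ρ_ten_of_eq_one h1) (hU (g 0 1))
  rw [S.hfun_eq_zero_of_ρ_eq_one h2 h1,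
    S.hfun_parabolic (uMat (g 0 1)) (hU _) (by simp; norm_num), add_zero] at hm
  rw [← hm]
  congr 1
  rw [mul_assoc, ← uMat_add, neg_add_cancel]
  rw [uMat_zero, mul_one]

end Setup

/-- `Γ₀(N)[1/q]` inside `SL₂(ℚ)`. -/
def qGamma0 (N q : ℕ) : Subgroup SL(2, ℚ) where
  carrier := {g | (∀ i j, IsQInt q (g i j)) ∧ IsQInt q (g 1 0 / N)}
  one_mem' := ⟨fun i j => by
    fin_cases i <;> fin_cases j <;> simp [← mem_qInts, zero_mem, one_mem],
    by simp [← mem_qInts, zero_mem]⟩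
  mul_mem' := by
    rintro a b ⟨ha, ha'⟩ ⟨hb, hb'⟩
    refine ⟨fun i j => ?_, ?_⟩
    · rw [← mem_qInts, Matrix.SpecialLinearGroup.coe_mul, Matrix.mul_apply, Fin.sum_univ_two]
      exact add_mem (mul_mem (ha i 0) (hb 0 j)) (mul_mem (ha i 1) (hb 1 j))
    · have : (a * b) 1 0 / (N : ℚ) = a 1 0 / N * b 0 0 + a 1 1 * (b 1 0 / N) := by
        simp [Matrix.mul_apply, Fin.sum_univ_two]; ring
      rw [← mem_qInts, this]
      exact add_mem (mul_mem ha' (hb 0 0)) (mul_mem (ha 1 1) hb')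
  inv_mem' := by
    rintro a ⟨ha, ha'⟩
    refine ⟨fun i j => ?_, ?_⟩
    · rw [← mem_qInts]
      fin_cases i <;> fin_cases j <;>
        simp [Matrix.SpecialLinearGroup.coe_inv, Matrix.adjugate_fin_two] <;>
        exact ha _ _
    · rw [← mem_qInts]
      simp [Matrix.SpecialLinearGroup.coe_inv, Matrix.adjugate_fin_two, neg_div]
      exact ha'

/-- Elements of `Γ₀(N)` lie in `qGamma0 N q`. -/
theorem mem_qGamma0_intCast {N q : ℕ} (γ : SL(2, ℤ)) (hc : (N : ℤ) ∣ γ 1 0) :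
    SpecialLinearGroup.map (Int.castRingHom ℚ) γ ∈ qGamma0 N q := by
  refine ⟨fun i j => ⟨0, γ i j, by rw [map_entry]; simp⟩, ?_⟩
  obtain ⟨t, ht⟩ := hc
  rcases eq_or_ne N 0 with rfl | hN
  · exact ⟨0, 0, by simp⟩
  · refine ⟨0, t, ?_⟩
    rw [map_entry, ht]
    have : (N : ℚ) ≠ 0 := by exact_mod_cast hN
    simp
    field_simp

section Main

variable {N q p : ℕ} [Fact p.Prime]

/-- **Ihara's lemma**, group theoretic form: a homomorphism on `Γ₀(N)[1/q]` killing the elements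
of trace `2` vanishes on every element with upper left entry `≡ 1 mod N`. -/
theorem ihara_of_parabolic_of_congr (hp2 : p ≠ 2) (hN : 0 < N) (hq : q.Prime) (hqN : ¬ q ∣ N)
    (h : Additive (qGamma0 N q) →+ ZMod p)
    (hcusp : ∀ g : qGamma0 N q, g.1 0 0 + g.1 1 1 = 2 → h (Additive.ofMul g) = 0)
    (g : qGamma0 N q) (ha : IsQInt q ((g.1 0 0 - 1) / N)) :
    h (Additive.ofMul g) = 0 := by
  classical
  have : NeZero N := ⟨hN.ne'⟩
  have hco := hq.coprime_iff_not_dvd.2 hqN
  set ι : SL(2, qInts q) →* SL(2, ℚ) := SpecialLinearGroup.map (qInts q).subtype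
  have hmem : ∀ x : SL(2, qInts q), red hco (x 1 0) = 0 ↔ ι x ∈ qGamma0 N q := fun x => by
    rw [red_eq_zero_iff hco hq.ne_zero]
    exact ⟨fun hx => ⟨fun i j => (x i j).2, hx⟩, fun hx => hx.2⟩
  let S : Setup (ZMod p) :=
    { q := q
      N := N
      hq := hq
      hqN := hqN
      hfun := fun x =>
        if hx : ι x ∈ qGamma0 N q then h (Additive.ofMul ⟨ι x, hx⟩) else 0
      hfun_mul := fun x y hx hy => by
        have hx' := (hmem x).1 hx
        have hy' := (hmem y).1 hy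
        have hxy : ι (x * y) ∈ qGamma0 N q := by rw [map_mul]; exact mul_mem hx' hy'
        rw [dif_pos hx', dif_pos hy', dif_pos hxy, ← map_add]
        exact congrArg h (congrArg Additive.ofMul (Subtype.ext (map_mul ι x y)))
      hfun_parabolic := fun x hx ht => by
        rw [dif_pos ((hmem x).1 hx)]
        refine hcusp _ ?_
        have := congrArg Subtype.val ht
        exact this }
  let x : SL(2, qInts q) :=
    ⟨Matrix.of fun i j => ⟨g.1 i j, g.2.1 i j⟩, by
      apply Subtype.ext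
      rw [Matrix.det_fin_two]
      have := g.1.prop
      rw [Matrix.det_fin_two] at this
      exact this⟩
  have hιx : ι x = g.1 := by ext i j; rfl
  have h10 : red hco (x 1 0) = 0 := (hmem x).2 (hιx ▸ g.2)
  have h00 : red hco (x 0 0) = 1 := by
    rw [← sub_eq_zero, ← map_one (red hco), ← map_sub, red_eq_zero_iff hco hq.ne_zero]
    exact ha
  have h2 : (2 : ZMod p) ≠ 0 := by
    intro h0
    have h' : ((2 : ℕ) : ZMod p) = 0 := by exact_mod_cast h0
    rw [ZMod.natCast_eq_zero_iff] at h'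
    exact hp2 ((Nat.prime_dvd_prime_iff_eq Fact.out Nat.prime_two).1 h')
  have := S.hfun_eq_zero h2 (g := x) h10 h00
  have hx' : ι x ∈ qGamma0 N q := hιx ▸ g.2
  simp only [S, dif_pos hx'] at this
  rw [← this]
  exact congrArg h (congrArg Additive.ofMul (Subtype.ext hιx.symm))

/-- **Ihara's lemma**, group theoretic form, on `Γ₁(N)`. -/
theorem ihara_of_parabolic (hp2 : p ≠ 2) (hN : 0 < N) (hq : q.Prime) (hqN : ¬ q ∣ N)
    (h : Additive (qGamma0 N q) →+ ZMod p)
    (hcusp : ∀ g : qGamma0 N q, g.1 0 0 + g.1 1 1 = 2 → h (Additive.ofMul g) = 0)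
    (γ : SL(2, ℤ)) (hc : (N : ℤ) ∣ γ 1 0) (ha : (N : ℤ) ∣ γ 0 0 - 1) :
    h (Additive.ofMul ⟨SpecialLinearGroup.map (Int.castRingHom ℚ) γ, mem_qGamma0_intCast γ hc⟩)
      = 0 := by
  refine ihara_of_parabolic_of_congr hp2 hN hq hqN h hcusp _ ?_
  obtain ⟨t, ht⟩ := ha
  refine ⟨0, t, ?_⟩
  have hN' : (N : ℚ) ≠ 0 := by exact_mod_cast hN.ne'
  have h' : ((γ 0 0 : ℤ) : ℚ) - 1 = (N : ℚ) * t := by exact_mod_cast congrArg (fun z : ℤ => (z : ℚ)) ht
  rw [map_entry, eq_intCast, h']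
  field_simp

/-- **Ihara's lemma**, variant whose hypothesis is about elements with a rational eigenvector. -/
theorem ihara (hp2 : p ≠ 2) (hN : 0 < N) (hq : q.Prime) (hqN : ¬ q ∣ N)
    (h : Additive (qGamma0 N q) →+ ZMod p)
    (hcusp : ∀ g : qGamma0 N q, (∃ v : Fin 2 → ℚ, v ≠ 0 ∧
      ∃ c : ℚ, (g.1 : Matrix (Fin 2) (Fin 2) ℚ).mulVec v = c • v) → h (Additive.ofMul g) = 0)
    (γ : SL(2, ℤ)) (hc : (N : ℤ) ∣ γ 1 0) (ha : (N : ℤ) ∣ γ 0 0 - 1) :
    h (Additive.ofMul ⟨SpecialLinearGroup.map (Int.castRingHom ℚ) γ, mem_qGamma0_intCast γ hc⟩)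
      = 0 := by
  refine ihara_of_parabolic hp2 hN hq hqN h (fun g hg => hcusp g ?_) γ hc ha
  have hdet : ((g.1 : Matrix (Fin 2) (Fin 2) ℚ) - 1).det = 0 := by
    have h' := g.1.prop
    rw [Matrix.det_fin_two] at h' ⊢
    simp only [Matrix.sub_apply, Matrix.one_apply_eq, ne_eq, zero_ne_one, one_ne_zero,
      not_false_eq_true, Matrix.one_apply_ne, sub_zero]
    linear_combination h' - hg
  obtain ⟨v, hv, hv'⟩ := Matrix.exists_mulVec_eq_zero_iff.2 hdet
  refine ⟨v, hv, 1, ?_⟩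
  rw [Matrix.sub_mulVec, Matrix.one_mulVec, sub_eq_zero] at hv'
  rw [one_smul]; exact hv'

end Main

end Fermat.Agent.IharaGroup

end
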