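import Fermat.Agent.IharaGroup.Local
import Mathlib.Data.ZMod.Units
import Mathlib.LinearAlgebra.Matrix.FixedDetMatrices

/-!
# The ring `ℤ[1/q] ⊆ ℚ` and its special linear group

The reduction of `ℤ[1/q]` modulo `N` prime to `q`, and the generation of `SL₂(ℤ[1/q])` by elementary
matrices (`closure_elementary_eq_top`).
-/

set_option autoImplicit false

noncomputable section

open scoped MatrixGroups

namespace Fermat.Agent.IharaGroup

/-- `x ∈ ℤ[1/q]`. -/
def IsQInt (q : ℕ) (x : ℚ) : Prop := ∃ n : ℕ, ∃ m : ℤ, (q : ℚ) ^ n * x = m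

/-- `ℤ[1/q]` as a subring of `ℚ`. -/
def qInts (q : ℕ) : Subring ℚ where
  carrier := {x | IsQInt q x}
  one_mem' := ⟨0, 1, by simp⟩
  zero_mem' := ⟨0, 0, by simp⟩
  mul_mem' := by
    rintro x y ⟨i, m, hm⟩ ⟨j, m', hm'⟩
    exact ⟨i + j, m * m', by push_cast; rw [← hm, ← hm', pow_add]; ring⟩
  add_mem' := by
    rintro x y ⟨i, m, hm⟩ ⟨j, m', hm'⟩
    exact ⟨i + j, m * q ^ j + m' * q ^ i, by push_cast; rw [← hm, ← hm', pow_add]; ring⟩
  neg_mem' := by
    rintro x ⟨i, m, hm⟩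
    exact ⟨i, -m, by push_cast; rw [← hm]; ring⟩

/-- Membership in `ℤ[1/q]`. -/
theorem mem_qInts {q : ℕ} {x : ℚ} : x ∈ qInts q ↔ IsQInt q x := Iff.rfl

/-- Clearing the denominator of an element of `ℤ[1/q]`. -/
theorem exists_pow_mul_eq {q : ℕ} (x : qInts q) :
    ∃ (n : ℕ) (m : ℤ), (q : qInts q) ^ n * x = (m : qInts q) := by
  obtain ⟨n, m, h⟩ := x.2
  exact ⟨n, m, Subtype.ext (by push_cast; exact h)⟩

/-- `m / q ^ k` in `ℤ[1/q]`. -/
def qFrac {q : ℕ} (hq : q ≠ 0) (m : ℤ) (k : ℕ) : qInts q :=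
  ⟨(m : ℚ) / (q : ℚ) ^ k, k, m, by field_simp⟩

/-- `qFrac m k` is `m / q ^ k`. -/
theorem pow_mul_qFrac {q : ℕ} (hq : q ≠ 0) (m : ℤ) (k : ℕ) :
    (q : qInts q) ^ k * qFrac hq m k = (m : qInts q) :=
  Subtype.ext (by push_cast [qFrac]; field_simp)

/-- Powers of `q` are units of `ℤ[1/q]`. -/
theorem isUnit_q_pow {q : ℕ} (hq : q ≠ 0) (k : ℕ) : IsUnit ((q : qInts q) ^ k) :=
  IsUnit.of_mul_eq_one (qFrac hq 1 k) (by simpa using pow_mul_qFrac hq 1 k)

/-- A nonzero element of `ℤ[1/q]` is a power of `q` times an integer prime to `q`. -/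
theorem exists_pow_mul_eq_pow_mul {q : ℕ} (hq : q.Prime) (x : qInts q) (hx : x ≠ 0) :
    ∃ (i j : ℕ) (m : ℤ), ¬ (q : ℤ) ∣ m ∧
      (q : qInts q) ^ i * x = (q : qInts q) ^ j * (m : qInts q) := by
  obtain ⟨i, m, hm⟩ := exists_pow_mul_eq x
  have hm0 : m ≠ 0 := by
    rintro rfl
    apply hx
    rw [Int.cast_zero] at hm
    exact (isUnit_q_pow hq.ne_zero i).mul_right_eq_zero.1 hm
  obtain ⟨j, m', hndvd, rfl⟩ :=
    (Int.finiteMultiplicity_iff.2 ⟨by simpa using hq.ne_one, hm0⟩ :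
      FiniteMultiplicity (q : ℤ) m).exists_eq_pow_mul_and_not_dvd |>
      fun ⟨c, hc, hnc⟩ => (⟨_, c, hnc, hc⟩ : ∃ j c, ¬ (q : ℤ) ∣ c ∧ m = (q : ℤ) ^ j * c)
  exact ⟨i, j, m', hndvd, by rw [hm]; push_cast; rfl⟩

section Red

variable {q N : ℕ} [NeZero N] (hqN : q.Coprime N)

include hqN in
omit [NeZero N] in
theorem isUnit_q_zmod : IsUnit (q : ZMod N) := (ZMod.isUnit_iff_coprime q N).2 hqN

include hqN in
omit [NeZero N] in
theorem isUnit_den (x : qInts q) : IsUnit ((x : ℚ).den : ZMod N) := by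
  obtain ⟨n, m, h⟩ := x.2
  have hd : (x : ℚ).den ∣ q ^ n := by
    have h1 : ((m : ℚ) / ((q ^ n : ℕ) : ℚ)) = (x : ℚ) ∨ q = 0 := by
      rcases eq_or_ne q 0 with h0 | h0
      · exact Or.inr h0
      · left; push_cast; rw [← h]; field_simp
    rcases h1 with h1 | h1
    · rw [← h1, show ((m : ℚ) / ((q ^ n : ℕ) : ℚ)) = ((m : ℚ) / (((q ^ n : ℕ) : ℤ) : ℚ)) by simp,
        ← Rat.divInt_eq_div]
      exact Int.natCast_dvd_natCast.1 (Rat.den_dvd m _)
    · subst h1
      have : N = 1 := by simpa [Nat.Coprime] using hqN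
      rcases Nat.eq_zero_or_pos n with rfl | hn
      · simp only [pow_zero, one_mul] at h
        rw [h]; simp
      · rw [zero_pow hn.ne']; exact dvd_zero _
  rw [ZMod.isUnit_iff_coprime]
  exact (hqN.pow_left n).coprime_dvd_left hd

/-- Reduction modulo `N`. -/
def redFun (x : qInts q) : ZMod N := ((x : ℚ).num : ZMod N) * ((x : ℚ).den : ZMod N)⁻¹

include hqN in
omit [NeZero N] in
theorem redFun_eq (x : qInts q) (n : ℕ) (m : ℤ) (h : (q : qInts q) ^ n * x = (m : qInts q)) :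
    (q : ZMod N) ^ n * redFun x = (m : ZMod N) := by
  have h' : (q : ℚ) ^ n * (x : ℚ) = (m : ℚ) := by simpa using congrArg Subtype.val h
  have hi : ((q : ℤ) ^ n * (x : ℚ).num : ℤ) = m * ((x : ℚ).den : ℤ) := by
    have := Rat.num_div_den (x : ℚ)
    have hd : ((x : ℚ).den : ℚ) ≠ 0 := by exact_mod_cast (x : ℚ).den_nz
    rw [← this] at h'
    field_simp at h'
    rw [mul_comm m]; exact_mod_cast h'
  have hz := congrArg (fun z : ℤ => (z : ZMod N)) hi
  push_cast at hz
  rw [redFun, ← mul_assoc, hz, mul_assoc, ZMod.mul_inv_of_unit _ (isUnit_den hqN x), mul_one]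

/-- Reduction modulo `N` as a ring homomorphism. -/
def red : qInts q →+* ZMod N where
  toFun := redFun
  map_one' := by simpa using redFun_eq hqN 1 0 1 (by simp)
  map_zero' := by simpa using redFun_eq hqN 0 0 0 (by simp)
  map_add' x y := by
    obtain ⟨i, m, hm⟩ := exists_pow_mul_eq x
    obtain ⟨j, m', hm'⟩ := exists_pow_mul_eq y
    have h := redFun_eq hqN (x + y) (i + j) (m * q ^ j + m' * q ^ i)
      (by push_cast; rw [← hm, ← hm', pow_add]; ring)
    have h1 := redFun_eq hqN x i m hm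
    have h2 := redFun_eq hqN y j m' hm'
    apply ((isUnit_q_zmod hqN).pow (i + j)).mul_left_cancel
    rw [h]; push_cast; rw [← h1, ← h2, pow_add]; ring
  map_mul' x y := by
    obtain ⟨i, m, hm⟩ := exists_pow_mul_eq x
    obtain ⟨j, m', hm'⟩ := exists_pow_mul_eq y
    have h := redFun_eq hqN (x * y) (i + j) (m * m')
      (by push_cast; rw [← hm, ← hm', pow_add]; ring)
    have h1 := redFun_eq hqN x i m hm
    have h2 := redFun_eq hqN y j m' hm'
    apply ((isUnit_q_zmod hqN).pow (i + j)).mul_left_cancel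
    rw [h]; push_cast; rw [← h1, ← h2, pow_add]; ring

omit [NeZero N] in
/-- `red` is computed by clearing denominators. -/
theorem red_eq (x : qInts q) (n : ℕ) (m : ℤ) (h : (q : qInts q) ^ n * x = (m : qInts q)) :
    (q : ZMod N) ^ n * red hqN x = (m : ZMod N) := redFun_eq hqN x n m h

/-- The kernel of the reduction is `N ℤ[1/q]`. -/
theorem red_eq_zero_iff (hq : q ≠ 0) (x : qInts q) :
    red hqN x = 0 ↔ IsQInt q ((x : ℚ) / (N : ℚ)) := by
  constructor
  · intro h
    obtain ⟨n, m, hm⟩ := exists_pow_mul_eq x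
    have h' := red_eq hqN x n m hm
    rw [h, mul_zero] at h'
    obtain ⟨t, rfl⟩ := (ZMod.intCast_zmod_eq_zero_iff_dvd m N).1 h'.symm
    refine ⟨n, t, ?_⟩
    have h2 : (q : ℚ) ^ n * (x : ℚ) = ((N : ℤ) * t : ℤ) := by
      simpa using congrArg Subtype.val hm
    have hN : (N : ℚ) ≠ 0 := by exact_mod_cast NeZero.ne N
    rw [mul_div_assoc', h2]; push_cast; field_simp
  · rintro ⟨n, m, hm⟩
    have h2 : (q : qInts q) ^ n * x = (((N : ℤ) * m : ℤ) : qInts q) := by
      apply Subtype.ext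
      push_cast
      have hN : (N : ℚ) ≠ 0 := by exact_mod_cast NeZero.ne N
      rw [← hm]; field_simp
    have h' := red_eq hqN x n _ h2
    apply ((isUnit_q_zmod hqN).pow n).mul_left_cancel
    rw [h', mul_zero]; simp

end Red

section Generators

open Matrix SpecialLinearGroup ModularGroup

variable {q : ℕ}

/-- Entries of the image under a ring homomorphism. -/
theorem map_entry {A B : Type*} [CommRing A] [CommRing B] (f : A →+* B) (M : SL(2, A))
    (i j : Fin 2) : SpecialLinearGroup.map f M i j = f (M i j) := rfl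

/-- `uMat` is additive. -/
theorem uMat_add {A : Type*} [CommRing A] (x y : A) : uMat (x + y) = uMat x * uMat y := by
  ext i j; fin_cases i <;> fin_cases j <;> simp [Matrix.mul_apply, Fin.sum_univ_two, add_comm]

/-- `lMat` is additive. -/
theorem lMat_add {A : Type*} [CommRing A] (x y : A) : lMat (x + y) = lMat x * lMat y := by
  ext i j; fin_cases i <;> fin_cases j <;> simp [Matrix.mul_apply, Fin.sum_univ_two]

theorem dMat_eq_prod {A : Type*} [CommRing A] (a : Aˣ) :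
    dMat a = uMat (a : A) * lMat (-((a⁻¹ : Aˣ) : A)) * uMat (a : A) *
      (uMat (-1) * lMat 1 * uMat (-1)) := by
  ext i j
  fin_cases i <;> fin_cases j <;> simp [Matrix.mul_apply, Fin.sum_univ_two]

/-- `SL₂(ℤ[1/q])` is generated by elementary matrices. -/
theorem closure_elementary_eq_top (hq : q ≠ 0) :
    Subgroup.closure (Set.range (uMat : qInts q → SL(2, qInts q)) ∪ Set.range lMat) = ⊤ := by
  set H := Subgroup.closure (Set.range (uMat : qInts q → SL(2, qInts q)) ∪ Set.range lMat)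
  have hu : ∀ x, (uMat x : SL(2, qInts q)) ∈ H := fun x =>
    Subgroup.subset_closure (Or.inl ⟨x, rfl⟩)
  have hl : ∀ x, (lMat x : SL(2, qInts q)) ∈ H := fun x =>
    Subgroup.subset_closure (Or.inr ⟨x, rfl⟩)
  set φ : SL(2, ℤ) →* SL(2, qInts q) := SpecialLinearGroup.map (Int.castRingHom (qInts q))
  have hφ : ∀ γ, φ γ ∈ H := by
    have : H.comap φ = ⊤ := by
      rw [eq_top_iff, ← SpecialLinearGroup.SL2Z_generators, Subgroup.closure_le]
      rintro g (rfl | rfl)
      · show φ S ∈ H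
        have : φ S = uMat (-1) * lMat 1 * uMat (-1) := by
          ext i j
          fin_cases i <;> fin_cases j <;> simp only [φ, map_entry] <;>
            simp [ModularGroup.S, Matrix.mul_apply, Fin.sum_univ_two]
        rw [this]
        exact H.mul_mem (H.mul_mem (hu _) (hl _)) (hu _)
      · show φ T ∈ H
        have : φ T = uMat 1 := by
          ext i j; fin_cases i <;> fin_cases j <;> simp only [φ, map_entry] <;> simp [ModularGroup.T]
        rw [this]; exact hu _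
    intro γ
    have : γ ∈ H.comap φ := this ▸ Subgroup.mem_top γ
    exact this
  rw [eq_top_iff]
  intro g _
  have hdet : g 0 0 * g 1 1 - g 0 1 * g 1 0 = 1 := by
    rw [← Matrix.det_fin_two]; exact g.prop
  obtain ⟨i, A, hA⟩ := exists_pow_mul_eq (g 0 0)
  obtain ⟨j, C, hC⟩ := exists_pow_mul_eq (g 1 0)
  set A₁ : ℤ := A * (q : ℤ) ^ j
  set C₁ : ℤ := C * (q : ℤ) ^ i
  have hA₁ : (A₁ : qInts q) = (q : qInts q) ^ (i + j) * g 0 0 := by
    simp only [A₁, Int.cast_mul, Int.cast_pow, Int.cast_natCast, ← hA, pow_add]; ring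
  have hC₁ : (C₁ : qInts q) = (q : qInts q) ^ (i + j) * g 1 0 := by
    simp only [C₁, Int.cast_mul, Int.cast_pow, Int.cast_natCast, ← hC, pow_add]; ring
  have hgcd : 0 < Int.gcd A₁ C₁ := by
    rw [Int.gcd_pos_iff]
    by_contra h
    push Not at h
    have h1 : g 0 0 = 0 := by
      apply (isUnit_q_pow hq (i + j)).mul_right_eq_zero.1
      rw [← hA₁, h.1, Int.cast_zero]
    have h2 : g 1 0 = 0 := by
      apply (isUnit_q_pow hq (i + j)).mul_right_eq_zero.1
      rw [← hC₁, h.2, Int.cast_zero]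
    rw [h1, h2] at hdet
    simp at hdet
  obtain ⟨a₀, c₀, hco, ha₀, hc₀⟩ := Int.exists_gcd_one hgcd
  obtain ⟨x, y, hxy⟩ := Int.isCoprime_iff_gcd_eq_one.2 hco
  set γ : SL(2, ℤ) := ⟨!![x, y; -c₀, a₀], by rw [Matrix.det_fin_two_of]; linarith⟩
  set g' : SL(2, qInts q) := φ γ * g
  suffices hg' : g' ∈ H by
    have : g = (φ γ)⁻¹ * g' := by simp [g']
    rw [this]; exact H.mul_mem (H.inv_mem (hφ γ)) hg'
  have h10 : g' 1 0 = 0 := by
    apply (isUnit_q_pow hq (i + j)).mul_right_eq_zero.1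
    have e0 : g' 1 0 = -(c₀ : qInts q) * g 0 0 + (a₀ : qInts q) * g 1 0 := by
      simp only [g', φ, Matrix.SpecialLinearGroup.coe_mul, Matrix.mul_apply, Fin.sum_univ_two,
        map_entry]
      simp [γ]
    have e1 : (A₁ : qInts q) = (a₀ : qInts q) * ((Int.gcd A₁ C₁ : ℤ) : qInts q) := by
      rw [← Int.cast_mul, ← ha₀]
    have e2 : (C₁ : qInts q) = (c₀ : qInts q) * ((Int.gcd A₁ C₁ : ℤ) : qInts q) := by
      rw [← Int.cast_mul, ← hc₀]
    rw [e0]
    linear_combination (c₀ : qInts q) * hA₁ - (a₀ : qInts q) * hC₁ -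
      (c₀ : qInts q) * e1 + (a₀ : qInts q) * e2
  obtain ⟨u, hu'⟩ := isUnit_diag_of_lower_zero h10
  have hd : g' = dMat u * uMat (((u⁻¹ : (qInts q)ˣ) : qInts q) * g' 0 1) := by
    have hdet' : g' 0 0 * g' 1 1 - g' 0 1 * g' 1 0 = 1 := by
      rw [← Matrix.det_fin_two]; exact g'.prop
    rw [h10, mul_zero, sub_zero, ← hu'] at hdet'
    ext a b
    fin_cases a <;> fin_cases b <;> simp [Matrix.mul_apply, Fin.sum_univ_two, ← hu', h10]
    have : g' 1 1 = ((u⁻¹ : (qInts q)ˣ) : qInts q) := by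
      linear_combination ((u⁻¹ : (qInts q)ˣ) : qInts q) * hdet' - g' 1 1 * Units.mul_inv u
    exact this
  rw [hd, dMat_eq_prod]
  exact H.mul_mem (H.mul_mem (H.mul_mem (H.mul_mem (hu _) (hl _)) (hu _))
    (H.mul_mem (H.mul_mem (hu _) (hl _)) (hu _))) (hu _)

end Generators

end Fermat.Agent.IharaGroup

end
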